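import Fermat.Agent.TateThesis.Zeta

/-!
# Continuation and functional equation of the zeta integrals

Riemann-Roch turns the part below absolute value one into the part above it for the transform, with
two elementary integrals left over.
-/

set_option autoImplicit false
set_option linter.unusedSectionVars false
set_option linter.style.haveILetI false

noncomputable section

open NumberField IsDedekindDomain MeasureTheory MeasureTheory.Measure
open Filter Topology Module
open FA.AdeleDual FA.Ideles FA.IdeleClass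
open scoped Classical Pointwise NNReal ENNReal

set_option maxHeartbeats 800000

namespace FA.TateThesis

universe u

variable {K : Type u} [Field K] [NumberField K]

local notation "𝐀" => AdeleRing (𝓞 K) K
local notation "𝐊" => algebraMap K (AdeleRing (𝓞 K) K)
local notation "𝐆" => Idele K
local notation "Γ" => MonoidHom.range (principal (K := K))

attribute [local instance] secondCountable_idele locallyCompact_idele countable_field

theorem absPow_inv (s : ℂ) (x : 𝐆) : absPow s x⁻¹ = absPow (-s) x := by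
  have h : logAbs x⁻¹ = -logAbs x := by
    rw [eq_neg_iff_add_eq_zero, ← logAbs_mul, inv_mul_cancel, logAbs_of_one (one_mem _)]
  rw [absPow, absPow, h, Complex.ofReal_neg, mul_neg, neg_mul]

theorem logAbs_inv (x : 𝐆) : logAbs x⁻¹ = -logAbs x := by
  rw [eq_neg_iff_add_eq_zero, ← logAbs_mul, inv_mul_cancel, logAbs_of_one (one_mem _)]

theorem absPow_add (s t : ℂ) (x : 𝐆) : absPow (s + t) x = absPow s x * absPow t x := by
  rw [absPow, absPow, absPow, ← Complex.exp_add, add_mul]

/-- The elementary integrand below absolute value one. -/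
def polarTerm (χ : Idele K →* ℂˣ) (s : ℂ) : Idele K → ℂ :=
  (logAbs ⁻¹' Set.Iio 0).indicator fun x => ((χ x : ℂˣ) : ℂ) * absPow s x

theorem measurable_polarTerm [MeasurableSpace (Idele K)] [BorelSpace (Idele K)] {χ : 𝐆 →* ℂˣ}
    (hχ : IsClassChar χ) (s : ℂ) : Measurable (polarTerm χ s) :=
  ((Units.continuous_val.comp hχ.continuous).mul (continuous_absPow s)).measurable.indicator
    (continuous_logAbs.measurable measurableSet_Iio)

theorem norm_polarTerm {χ : 𝐆 →* ℂˣ} (hχ : IsClassChar χ) (s : ℂ) (x : 𝐆) :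
    ‖polarTerm χ s x‖ = (Set.Iio (0 : ℝ)).indicator (fun t => Real.exp (s.re * t)) (logAbs x) := by
  by_cases hx : logAbs x ∈ Set.Iio 0
  · rw [polarTerm, Set.indicator_of_mem (show x ∈ logAbs ⁻¹' Set.Iio 0 from hx),
      Set.indicator_of_mem hx, norm_mul, hχ.norm_eq, one_mul, norm_absPow]
  · rw [polarTerm, Set.indicator_of_notMem (show x ∉ logAbs ⁻¹' Set.Iio 0 from hx),
      Set.indicator_of_notMem hx, norm_zero]

/-- A character trivial on absolute value one is a power. -/
theorem exists_power_of_trivial {χ : 𝐆 →* ℂˣ} (hχ : IsClassChar χ)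
    (h : ∀ x ∈ oneIdeles K, χ x = 1) :
    ∃ S : ℝ, ∀ x, ((χ x : ℂˣ) : ℂ) = absPow (S * Complex.I) x := by
  have hl0 : lineIdele K 0 = 1 := Units.ext (Prod.ext scale_zero rfl)
  let ψ : AddChar ℝ Circle :=
    { toFun := fun t => ⟨((χ (lineIdele K t) : ℂˣ) : ℂ), mem_sphere_zero_iff_norm.2 (hχ.norm_eq _)⟩
      map_zero_eq_one' := Circle.ext (by
        show ((χ (lineIdele K 0) : ℂˣ) : ℂ) = 1
        rw [hl0, map_one, Units.val_one])
      map_add_eq_mul' := fun a b => Circle.ext (by
        show ((χ (lineIdele K (a + b)) : ℂˣ) : ℂ) = _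
        rw [lineIdele_add, map_mul, Units.val_mul]
        rfl) }
  obtain ⟨c, hc⟩ := exists_eq_expNeg (f := ψ)
    ((Units.continuous_val.comp (hχ.continuous.comp continuous_lineIdele)).subtype_mk _)
  refine ⟨-(2 * Real.pi * c), fun x => ?_⟩
  have h1 : x * lineIdele K (-logAbs x) ∈ oneIdeles K := MonoidHom.mem_ker.2 (by
    rw [map_mul, ideleAbs_lineIdele, Real.exp_neg, exp_logAbs,
      mul_inv_cancel₀ (ideleAbs_pos x).ne'])
  have h2 : χ x = χ (lineIdele K (logAbs x)) := by
    have h3 := h _ h1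
    have e : x = x * lineIdele K (-logAbs x) * lineIdele K (logAbs x) := by
      rw [mul_assoc, ← lineIdele_add, neg_add_cancel, hl0, mul_one]
    conv_lhs => rw [e, map_mul, h3, one_mul]
  rw [h2, show ((χ (lineIdele K (logAbs x)) : ℂˣ) : ℂ) = ((ψ (logAbs x) : Circle) : ℂ) from rfl, hc,
    expNeg_apply, AddCircle.toCircle_apply_mk, Circle.coe_exp, absPow]
  congr 1
  push_cast
  ring

variable [MeasurableSpace (AdeleRing (𝓞 K) K)] [BorelSpace (AdeleRing (𝓞 K) K)]
variable {μ : Measure (AdeleRing (𝓞 K) K)} [IsAddHaarMeasure μ]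
variable [MeasurableSpace (Idele K)] [BorelSpace (Idele K)]
variable {ν : Measure (Idele K)} [IsHaarMeasure ν] {D : Set (Idele K)}

/-- The inverse of a domain is a domain. -/
theorem isFundamentalDomain_inv (hD : IsFundamentalDomain Γ D ν) :
    IsFundamentalDomain Γ ((fun x : 𝐆 => x⁻¹) '' D) ν :=
  hD.image_of_equiv (Equiv.inv 𝐆) (measurePreserving_inv ν).quasiMeasurePreserving (Equiv.inv Γ)
    fun g x => by
      show ((((g⁻¹ : Γ)) : 𝐆) * x)⁻¹ = (g : 𝐆) * x⁻¹
      rw [Subgroup.coe_inv, mul_inv, inv_inv]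

/-- **Inversion does not change integrals over a domain.** -/
theorem setIntegral_inv (hD : IsFundamentalDomain Γ D ν) {g : 𝐆 → ℂ}
    (hg : ∀ (γ : Γ) (x : 𝐆), g (γ • x) = g x) :
    (IntegrableOn g D ν → IntegrableOn (fun x => g x⁻¹) D ν) ∧
      ∫ x in D, g x⁻¹ ∂ν = ∫ x in D, g x ∂ν := by
  have hemb : MeasurableEmbedding (fun x : 𝐆 => x⁻¹) := (MeasurableEquiv.inv 𝐆).measurableEmbedding
  refine ⟨fun hi => ?_, ?_⟩
  · exact ((measurePreserving_inv ν).integrableOn_image hemb).1
      ((hD.integrableOn_iff (isFundamentalDomain_inv hD) hg).1 hi)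
  · rw [hD.setIntegral_eq (isFundamentalDomain_inv hD) hg,
      (measurePreserving_inv ν).setIntegral_image_emb hemb]

section

variable (hμ : μ (funDom K) = 1) (hDm : MeasurableSet D) (hDW : D ⊆ lineSet K)
  (hD : IsFundamentalDomain (MonoidHom.range (principal (K := K))) D ν)
include hDm hDW hD

/-- **Absolute value one is a null set.** -/
theorem measure_logAbs_zero : ν (logAbs ⁻¹' {0}) = 0 := by
  obtain ⟨V, -, hV⟩ := exists_map_logAbs D hDW hD
  have hm : MeasurableSet (logAbs ⁻¹' {0} : Set 𝐆) := continuous_logAbs.measurable (measurableSet_singleton 0)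
  rw [hD.measure_eq_tsum, ENNReal.tsum_eq_zero]
  intro γ
  have e : (γ • (logAbs ⁻¹' {0}) : Set 𝐆) = logAbs ⁻¹' {0} := by
    ext x
    rw [Set.mem_smul_set_iff_inv_smul_mem, Set.mem_preimage, Set.mem_preimage, logAbs_smul]
  have h := congrArg (fun m : Measure ℝ => m {0}) hV
  rw [Measure.map_apply continuous_logAbs.measurable (measurableSet_singleton 0),
    Measure.restrict_apply hm, Measure.smul_apply, Real.volume_singleton, smul_zero] at h
  rw [e]
  exact h

theorem integrableOn_polarTerm {χ : 𝐆 →* ℂˣ} (hχ : IsClassChar χ) {s : ℂ} (hs : 0 < s.re) :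
    IntegrableOn (polarTerm χ s) D ν := by
  obtain ⟨V, -, hV⟩ := exists_map_logAbs D hDW hD
  have hg : Integrable ((Set.Iio (0 : ℝ)).indicator fun t => Real.exp (s.re * t))
      (V • (volume : Measure ℝ)) := by
    refine Integrable.smul_measure_nnreal ?_
    exact ((integrableOn_exp_mul_Iic hs 0).mono_set Set.Iio_subset_Iic_self).integrable_indicator
      measurableSet_Iio
  rw [← hV] at hg
  refine (hg.comp_measurable continuous_logAbs.measurable).mono'
    (measurable_polarTerm hχ s).aestronglyMeasurable (Eventually.of_forall fun x => ?_)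
  exact (norm_polarTerm hχ s x).le

/-- **The elementary integral for a power.** -/
theorem integral_polarTerm_power {χ : 𝐆 →* ℂˣ} {S : ℝ}
    (hS : ∀ x, ((χ x : ℂˣ) : ℂ) = absPow (S * Complex.I) x) {V : ℝ≥0}
    (hV : Measure.map logAbs (ν.restrict D) = V • (volume : Measure ℝ)) {s : ℂ} (hs : 0 < s.re) :
    ∫ x in D, polarTerm χ s x ∂ν = (V : ℂ) / (s + S * Complex.I) := by
  set g : ℝ → ℂ := (Set.Iio (0 : ℝ)).indicator fun t : ℝ => Complex.exp ((s + S * Complex.I) * t)
  have hgm : Measurable g := (Complex.continuous_exp.comp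
    (continuous_const.mul Complex.continuous_ofReal)).measurable.indicator measurableSet_Iio
  have e : ∀ x, polarTerm χ s x = g (logAbs x) := fun x => by
    by_cases hx : logAbs x ∈ Set.Iio 0
    · rw [polarTerm, Set.indicator_of_mem (show x ∈ logAbs ⁻¹' Set.Iio 0 from hx), hS, ← absPow_add,
        add_comm, absPow]
      simp only [g, Set.indicator_of_mem hx]
    · rw [polarTerm, Set.indicator_of_notMem (show x ∉ logAbs ⁻¹' Set.Iio 0 from hx)]
      simp only [g, Set.indicator_of_notMem hx]
  rw [integral_congr_ae (Eventually.of_forall e),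
    ← integral_map continuous_logAbs.measurable.aemeasurable hgm.aestronglyMeasurable, hV,
    integral_smul_nnreal_measure, integral_indicator measurableSet_Iio, ← integral_Iic_eq_integral_Iio,
    integral_exp_mul_complex_Iic (by simpa using hs), NNReal.smul_def, Complex.real_smul]
  simp [div_eq_mul_inv]

/-- **The elementary integral for the other characters.** -/
theorem integral_polarTerm_zero {χ : 𝐆 →* ℂˣ} (hχ : IsClassChar χ) {b : 𝐆} (hb : b ∈ oneIdeles K)
    (hχb : χ b ≠ 1) (s : ℂ) : ∫ x in D, polarTerm χ s x ∂ν = 0 := by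
  have hinv : ∀ (γ : Γ) (x : 𝐆), polarTerm χ s (γ • x) = polarTerm χ s x := fun γ x => by
    unfold polarTerm
    simp only [Set.indicator_apply, Set.mem_preimage, logAbs_smul, hχ.apply_smul, absPow_smul]
  have hmul : ∀ x, polarTerm χ s (b * x) = ((χ b : ℂˣ) : ℂ) * polarTerm χ s x := fun x => by
    have h1 : logAbs (b * x) = logAbs x := by rw [logAbs_mul, logAbs_of_one hb, zero_add]
    unfold polarTerm
    simp only [Set.indicator_apply, Set.mem_preimage, absPow, h1, map_mul, Units.val_mul, mul_ite,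
      mul_zero, mul_assoc]
  have h := setIntegral_translate hD hinv b
  rw [integral_congr_ae (Eventually.of_forall hmul), integral_const_mul] at h
  by_contra hne
  exact hχb (Units.ext (mul_right_cancel₀ hne (h.trans (one_mul _).symm)))

include hμ

/-- **The part below absolute value one.** -/
theorem integral_lower {f : 𝐀 → ℂ} (hf : f ∈ schwartzBruhat K) {χ : 𝐆 →* ℂˣ}
    (hχ : IsClassChar χ) {s : ℂ} (hs : 1 < s.re) :
    ∫ x in logAbs ⁻¹' Set.Iio 0, zetaTerm f χ s x ∂ν =
      zetaUpper ν (adeleFourier μ f) χ⁻¹ (1 - s) +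
        adeleFourier μ f 0 * ∫ x in D, polarTerm χ (s - 1) x ∂ν -
        f 0 * ∫ x in D, polarTerm χ s x ∂ν := by
  have hfh := adeleFourier_mem hμ hf
  obtain ⟨-, hlow⟩ := setIntegral_unfold hμ hDm hDW hD hf hχ measurableSet_Iio
    ((integrableOn_lower hμ hDm hDW hD hf hχ hs).mono_set (Set.preimage_mono Set.Iio_subset_Iic_self))
  obtain ⟨hHi, hup⟩ := setIntegral_unfold hμ hDm hDW hD hfh hχ.inv measurableSet_Ioi
    (integrableOn_upper hμ hDm hDW hD hfh hχ.inv (1 - s))
  set H : 𝐆 → ℂ := (logAbs ⁻¹' Set.Ioi 0).indicator fun x =>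
    (((χ⁻¹) x : ℂˣ) : ℂ) * absPow (1 - s) x * unitSum (adeleFourier μ f) x with hH
  have hHinv : ∀ (γ : Γ) (x : 𝐆), H (γ • x) = H x := fun γ x => by
    have hu : unitSum (adeleFourier μ f) (γ • x) = unitSum (adeleFourier μ f) x := by
      obtain ⟨k, hk⟩ := γ.2
      unfold unitSum
      rw [← (Equiv.mulLeft k).tsum_eq
        fun j : Kˣ => adeleFourier μ f ((x : 𝐀) * 𝐊 (j : K))]
      refine tsum_congr fun j => congrArg _ ?_
      rw [Equiv.coe_mulLeft, Units.val_mul, map_mul]
      show (((γ : 𝐆) * x : 𝐆) : 𝐀) * 𝐊 (j : K) = _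
      rw [← hk, principal_mul_val, mul_assoc]
    simp only [hH, Set.indicator_apply, Set.mem_preimage, logAbs_smul, hχ.inv.apply_smul,
      absPow_smul, hu]
  obtain ⟨hinvI, hinvE⟩ := setIntegral_inv hD hHinv
  have hp1 : IntegrableOn (polarTerm χ (s - 1)) D ν :=
    integrableOn_polarTerm hDm hDW hD hχ (by rw [Complex.sub_re, Complex.one_re]; linarith)
  have hp0 : IntegrableOn (polarTerm χ s) D ν := integrableOn_polarTerm hDm hDW hD hχ (by linarith)
  have hpt : ∀ x, (logAbs ⁻¹' Set.Iio 0).indicator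
      (fun x => ((χ x : ℂˣ) : ℂ) * absPow s x * unitSum f x) x =
        H x⁻¹ + adeleFourier μ f 0 * polarTerm χ (s - 1) x - f 0 * polarTerm χ s x := fun x => by
    have h1 : x⁻¹ ∈ logAbs ⁻¹' Set.Ioi 0 ↔ x ∈ logAbs ⁻¹' Set.Iio 0 := by
      simp [Set.mem_preimage, logAbs_inv]
    by_cases hx : x ∈ logAbs ⁻¹' Set.Iio 0
    · simp only [hH, polarTerm, Set.indicator_of_mem hx, Set.indicator_of_mem (h1.2 hx),
        unitSum_eq hμ hf x, MonoidHom.inv_apply, map_inv, inv_inv, absPow_inv, neg_sub,
        sub_eq_add_neg s (1 : ℂ), absPow_add]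
      ring
    · simp only [hH, polarTerm, Set.indicator_of_notMem hx,
        Set.indicator_of_notMem fun h => hx (h1.1 h)]
      ring
  rw [hlow, integral_congr_ae (Eventually.of_forall hpt), integral_sub, integral_add, hinvE,
    integral_const_mul, integral_const_mul, zetaUpper, hup]
  · exact hinvI hHi
  · exact hp1.const_mul _
  · exact (hinvI hHi).add (hp1.const_mul _)
  · exact hp0.const_mul _

/-- **The continuation.** -/
theorem integral_zetaTerm_eq {f : 𝐀 → ℂ} (hf : f ∈ schwartzBruhat K) {χ : 𝐆 →* ℂˣ}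
    (hχ : IsClassChar χ) {s : ℂ} (hs : 1 < s.re) :
    ∫ x, zetaTerm f χ s x ∂ν = zetaUpper ν f χ s + zetaUpper ν (adeleFourier μ f) χ⁻¹ (1 - s) +
      (adeleFourier μ f 0 * ∫ x in D, polarTerm χ (s - 1) x ∂ν -
        f 0 * ∫ x in D, polarTerm χ s x ∂ν) := by
  rw [add_assoc, ← add_sub_assoc, ← integral_lower hμ hDm hDW hD hf hχ hs, zetaUpper,
    ← integral_add_compl (s := logAbs ⁻¹' Set.Ioi 0) (continuous_logAbs.measurable measurableSet_Ioi)
      (integrable_zetaTerm hμ hDm hDW hD hf hχ hs), ← Set.preimage_compl, Set.compl_Ioi]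
  congr 1
  refine setIntegral_congr_set ?_
  rw [ae_eq_set]
  refine ⟨measure_mono_null (fun x hx => ?_) (measure_logAbs_zero hDm hDW hD), ?_⟩
  · exact le_antisymm hx.1 (not_lt.1 hx.2)
  · rw [Set.sdiff_eq_empty.2 (Set.preimage_mono Set.Iio_subset_Iic_self), measure_empty]

end

/-- The reflection does not change the upper part. -/
theorem zetaUpper_comp_neg {f : 𝐀 → ℂ} {χ : 𝐆 →* ℂˣ} (hχ : IsClassChar χ) (s : ℂ) :
    zetaUpper ν (fun y => f (-y)) χ s = zetaUpper ν f χ s := by
  have hm : MeasurableSet (logAbs ⁻¹' Set.Ioi 0 : Set 𝐆) := continuous_logAbs.measurable measurableSet_Ioi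
  unfold zetaUpper
  rw [← integral_indicator hm, ← integral_indicator hm]
  conv_rhs => rw [← integral_mul_left_eq_self _ (principal (-1 : Kˣ) : 𝐆)]
  refine integral_congr_ae (Eventually.of_forall fun x => ?_)
  have h1 : logAbs ((principal (-1 : Kˣ) : 𝐆) * x) = logAbs x := by
    rw [logAbs_mul, logAbs_principal, zero_add]
  simp only [Set.indicator_apply, Set.mem_preimage, h1, zetaTerm, absPow, map_mul,
    hχ.principal_eq, one_mul]
  rw [principal_mul_val, Units.val_neg, Units.val_one, map_neg, map_one, mul_neg, mul_one]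

end FA.TateThesis

end
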