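import Fermat.Agent.TateThesis.Modulus
import Mathlib.RingTheory.Localization.Integer
import Mathlib.Topology.LocallyConstant.Basic

/-!
# The Fourier transform preserves the Schwartz-Bruhat space

The transform of a pure function is the transform of its Schwartz part times a function on the
finite adeles that is locally constant and supported in a lattice.  Composition with an idele also
preserves the space.
-/

set_option autoImplicit false
set_option linter.unusedSectionVars false
set_option linter.style.haveILetI false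

noncomputable section

open NumberField IsDedekindDomain MeasureTheory MeasureTheory.Measure
open Filter Topology Module
open FA.AdeleDual FA.Ideles FA.IdeleClass
open scoped Classical Real FourierTransform SchwartzMap RealInnerProductSpace

set_option maxHeartbeats 800000

namespace FA.TateThesis

universe u

variable {K : Type u} [Field K] [NumberField K]

local notation "𝐀" => AdeleRing (𝓞 K) K
local notation "𝐊" => algebraMap K (AdeleRing (𝓞 K) K)
local notation "𝐅" => algebraMap K (FiniteAdeleRing (𝓞 K) K)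

theorem adele_mul_inFin (a : 𝐀) (u : FiniteAdeleRing (𝓞 K) K) :
    a * inFin K u = inFin K (a.2 * u) := Prod.ext (mul_zero a.1) rfl

theorem adele_mul_inInf (a : 𝐀) (y : InfiniteAdeleRing K) :
    a * inInf K y = inInf K (a.1 * y) := Prod.ext rfl (mul_zero a.2)

theorem stdChar_inFin_of_mem {u : FiniteAdeleRing (𝓞 K) K} (hu : u ∈ finInt K) :
    stdChar K (inFin K u) = 1 := by
  rw [stdChar_of_mem (a := inFin K u) hu, show (inFin K u).1 = 0 from rfl, map_zero,
    AddChar.map_zero_eq_one]

theorem mul_mem_finInt {a b : FiniteAdeleRing (𝓞 K) K} (ha : a ∈ finInt K) (hb : b ∈ finInt K) :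
    a * b ∈ finInt K := fun v => mul_mem (ha v) (hb v)

theorem integer_mem_finInt (r : 𝓞 K) : 𝐅 (r : K) ∈ finInt K :=
  mem_finInt.2 fun v => valued_integer_le_one v r

/-- The dual of `m Ô`. -/
def InDual (m : ℕ) (b : FiniteAdeleRing (𝓞 K) K) : Prop :=
  ∀ u ∈ finInt K, stdChar K (inFin K (b * algebraMap K (FiniteAdeleRing (𝓞 K) K) (m : K) * u)) = 1

/-- The finite factor of the transform of a pure function. -/
def dualFactor (r : NNReal) (c : FiniteAdeleRing (𝓞 K) K) (m : ℕ)
    (b : FiniteAdeleRing (𝓞 K) K) : ℂ :=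
  if InDual m b then (r : ℂ) * starRingEnd ℂ ((stdChar K (inFin K (b * c)) : Circle) : ℂ) else 0

theorem inDual_add_iff {m : ℕ} {b o : FiniteAdeleRing (𝓞 K) K} (ho : o ∈ finInt K) :
    InDual m (b + o) ↔ InDual m b := by
  refine forall₂_congr fun u hu => ?_
  have h : o * 𝐅 (m : K) * u ∈ finInt K := mul_mem_finInt (mul_mem_finInt ho (by
    have := integer_mem_finInt (m : 𝓞 K)
    rwa [show ((m : 𝓞 K) : K) = (m : K) by simp] at this)) hu
  rw [add_mul, add_mul, map_add, AddChar.map_add_eq_mul, stdChar_inFin_of_mem h, mul_one]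

theorem isLocallyConstant_dualFactor (r : NNReal) (c : FiniteAdeleRing (𝓞 K) K) (m : ℕ) :
    IsLocallyConstant (dualFactor r c m) := by
  refine (IsLocallyConstant.iff_eventually_eq _).2 fun b => ?_
  have h1 : {y : FiniteAdeleRing (𝓞 K) K | y - b ∈ finInt K} ∈ 𝓝 b :=
    ((isOpen_finInt K).preimage (continuous_id.sub continuous_const)).mem_nhds
      (show b - b ∈ finInt K by rw [sub_self]; exact zero_mem _)
  have h2 : {y : FiniteAdeleRing (𝓞 K) K | (y - b) * c ∈ finInt K} ∈ 𝓝 b :=
    ((isOpen_finInt K).preimage ((continuous_id.sub continuous_const).mul continuous_const)).mem_nhds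
      (show (b - b) * c ∈ finInt K by rw [sub_self, zero_mul]; exact zero_mem _)
  filter_upwards [h1, h2] with y hy hyc
  rw [← add_sub_cancel b y]
  simp only [dualFactor, inDual_add_iff hy, add_mul, map_add, AddChar.map_add_eq_mul,
    stdChar_inFin_of_mem hyc, mul_one]

variable (K) in
/-- A denominator of the trace-dual basis. -/
theorem exists_denominator : ∃ d : 𝓞 K, d ≠ 0 ∧ ∀ i, ∃ s : 𝓞 K, (s : K) = d * traceDual K i := by
  obtain ⟨⟨d, hd⟩, h⟩ := IsLocalization.exist_integer_multiples (nonZeroDivisors (𝓞 K))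
    (Finset.univ) (fun i => traceDual K i)
  refine ⟨d, nonZeroDivisors.ne_zero hd, fun i => ?_⟩
  obtain ⟨s, hs⟩ := h i (Finset.mem_univ i)
  refine ⟨s, ?_⟩
  rw [show (s : K) = algebraMap (𝓞 K) K s from rfl, hs, Algebra.smul_def]

theorem hasCompactSupport_dualFactor (r : NNReal) (c : FiniteAdeleRing (𝓞 K) K) {m : ℕ}
    (hm : m ≠ 0) : HasCompactSupport (dualFactor r c m) := by
  obtain ⟨d, hd, hd'⟩ := exists_denominator K
  choose s hs using hd'
  set q : K := (d : K) * m
  have hq : q ≠ 0 := mul_ne_zero (RingOfIntegers.coe_ne_zero_iff.2 hd) (Nat.cast_ne_zero.2 hm)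
  refine HasCompactSupport.intro ((isCompact_finInt K).image (continuous_const_mul (𝐅 q⁻¹)))
    fun b hb => if_neg fun hdual => hb ⟨𝐅 q * b, ?_, by
      show 𝐅 q⁻¹ * (𝐅 q * b) = b
      rw [← mul_assoc, ← map_mul, inv_mul_cancel₀ hq, map_one, one_mul]⟩
  obtain ⟨k, hk⟩ := exists_sub_mem b
  have hmr : ∀ x : 𝓞 K, 𝐅 (x : K) * 𝐅 (m : K) ∈ finInt K := fun x => by
    rw [← map_mul, show (x : K) * (m : K) = ((x * m : 𝓞 K) : K) by simp]
    exact integer_mem_finInt _
  have hint : ∀ j, ∃ n : ℤ, (n : ℚ) = Algebra.trace ℚ K (k * m * integralBasis K j) := fun j => by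
    set x : 𝓞 K := RingOfIntegers.basis K j with hx
    have h1 := hdual (𝐅 (x : K)) (integer_mem_finInt x)
    rw [← sub_add_cancel b (𝐅 k), add_mul, add_mul, map_add, AddChar.map_add_eq_mul,
      stdChar_inFin_of_mem (by
        rw [mul_assoc, mul_comm (𝐅 (m : K))]; exact mul_mem_finInt hk (hmr x)), one_mul,
      ← map_mul, ← map_mul] at h1
    have h2 := stdChar_algebraMap (K := K) (k * m * x)
    rw [← inInf_add_inFin (𝐊 (k * m * x)), AddChar.map_add_eq_mul,
      show (𝐊 (k * m * (x : K))).2 = 𝐅 (k * m * x) from rfl, h1, mul_one, stdChar_inInf,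
      show (𝐊 (k * m * (x : K))).1 = algebraMap K (InfiniteAdeleRing K) (k * m * x) from rfl,
      traceInf_algebraMap] at h2
    obtain ⟨n, hn⟩ := expNeg_eq_one_iff.1 h2
    refine ⟨n, ?_⟩
    rw [integralBasis_apply]
    exact_mod_cast hn
  choose n hn using hint
  have hkm : 𝐅 (q * k) ∈ finInt K := by
    have e : k * m = ∑ j, (n j : ℚ) • traceDual K j := by
      refine (traceDual K).ext_elem fun j => ?_
      rw [Basis.repr_sum_self]
      rw [traceDual, LinearMap.BilinForm.dualBasis_repr_apply, Algebra.traceForm_apply, hn]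
    have e2 : q * k = ((∑ j, n j • s j : 𝓞 K) : K) := by
      rw [show q * k = (d : K) * (k * m) by ring, e, Finset.mul_sum,
        show ((∑ j, n j • s j : 𝓞 K) : K) = algebraMap (𝓞 K) K (∑ j, n j • s j) from rfl,
        _root_.map_sum]
      refine Finset.sum_congr rfl fun j _ => ?_
      rw [map_zsmul, show algebraMap (𝓞 K) K (s j) = (s j : K) from rfl, hs,
        Int.cast_smul_eq_zsmul, mul_smul_comm]
    rw [e2]
    exact integer_mem_finInt _
  have e3 : 𝐅 q * b = 𝐅 q * (b - 𝐅 k) + 𝐅 (q * k) := by
    simp only [q, map_mul]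
    ring
  rw [e3]
  refine add_mem (mul_mem_finInt ?_ hk) hkm
  show 𝐅 q ∈ finInt K
  rw [show q = ((d * m : 𝓞 K) : K) from ((map_mul (algebraMap (𝓞 K) K) d m).trans (by rw [map_natCast])).symm]
  exact integer_mem_finInt _

variable [MeasurableSpace (AdeleRing (𝓞 K) K)] [BorelSpace (AdeleRing (𝓞 K) K)]

/-- **The transform of a pure function at every adele.** -/
theorem exists_fourier_pureSB (μ : Measure (AdeleRing (𝓞 K) K)) [IsAddHaarMeasure μ]
    (h : 𝓢(CoordSpace K, ℂ)) (c : FiniteAdeleRing (𝓞 K) K) {m : ℕ} (hm : m ≠ 0) :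
    ∃ r : NNReal, ∀ a : 𝐀, adeleFourier μ (pureSB h c m) a =
      𝓕 (h : CoordSpace K → ℂ) (-traceVecInf a.1) * dualFactor r c m a.2 := by
  obtain ⟨r, hρ⟩ := exists_map_finCoset μ c hm
  refine ⟨r, fun a => ?_⟩
  have hmK : (m : K) ≠ 0 := Nat.cast_ne_zero.2 hm
  by_cases ha : InDual m a.2
  swap
  · obtain ⟨u, hu, hr⟩ : ∃ u ∈ finInt K, stdChar K (inFin K (a.2 * 𝐅 (m : K) * u)) ≠ 1 := by
      unfold InDual at ha
      push Not at ha
      exact ha
    rw [dualFactor, if_neg ha, mul_zero]
    set t : 𝐀 := inFin K (𝐅 (m : K) * u)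
    have hper : ∀ x, pureSB h c m (x + t) = pureSB h c m x := fun x => by
      have h1 : (x + t).1 = x.1 := add_zero x.1
      have h2 : x + t ∈ finCoset c m ↔ x ∈ finCoset c m := by
        show 𝐅 (m : K)⁻¹ * (x.2 + 𝐅 (m : K) * u - c) ∈ finInt K ↔
          𝐅 (m : K)⁻¹ * (x.2 - c) ∈ finInt K
        rw [add_sub_right_comm, mul_add, ← mul_assoc, ← map_mul, inv_mul_cancel₀ hmK, map_one,
          one_mul]
        exact (finInt K).add_mem_cancel_right hu
      unfold pureSB
      by_cases hx : x ∈ finCoset c m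
      · rw [Set.indicator_of_mem hx, Set.indicator_of_mem (h2.2 hx), h1]
      · rw [Set.indicator_of_notMem hx, Set.indicator_of_notMem fun h' => hx (h2.1 h')]
    have hz : stdChar K (a * t) ≠ 1 := by rwa [adele_mul_inFin, ← mul_assoc]
    have hI := integral_add_right_eq_self (μ := μ)
      (fun x => pureSB h c m x * starRingEnd ℂ ((stdChar K (a * x) : Circle) : ℂ)) t
    simp only [hper, mul_add, AddChar.map_add_eq_mul, Circle.coe_mul, map_mul, ← mul_assoc,
      integral_mul_const] at hI
    by_contra hne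
    refine hz (Circle.ext ((starRingEnd ℂ).injective ?_))
    rw [Circle.coe_one, map_one]
    exact mul_left_cancel₀ hne (hI.trans (mul_one _).symm)
  rw [dualFactor, if_pos ha]
  have hcE : Continuous fun x : 𝐀 => coordE K x.1 := continuous_coordE.comp continuous_fst
  set z : ℂ := starRingEnd ℂ ((stdChar K (inFin K (a.2 * c)) : Circle) : ℂ)
  set g : CoordSpace K → ℂ :=
    fun v => h v * starRingEnd ℂ ((expNeg ⟪v, traceVecInf a.1⟫ : Circle) : ℂ)
  have hgc : Continuous g := h.continuous.mul (Complex.continuous_conj.comp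
    (continuous_subtype_val.comp (continuous_expNeg.comp (continuous_id.inner continuous_const))))
  have hpt : ∀ x, pureSB h c m x * starRingEnd ℂ ((stdChar K (a * x) : Circle) : ℂ) =
      z * (finCoset c m).indicator (fun x : 𝐀 => g (coordE K x.1)) x := fun x => by
    by_cases hx : x ∈ finCoset c m
    swap
    · rw [pureSB, Set.indicator_of_notMem hx, Set.indicator_of_notMem hx, zero_mul, mul_zero]
    rw [pureSB, Set.indicator_of_mem hx, Set.indicator_of_mem hx]
    have h1 : stdChar K (inFin K (a.2 * (x.2 - c))) = 1 := by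
      have := ha _ hx
      rwa [mul_assoc a.2, ← mul_assoc (𝐅 (m : K)), ← map_mul, mul_inv_cancel₀ hmK, map_one,
        one_mul] at this
    have h2 : stdChar K (a * x) =
        expNeg ⟪coordE K x.1, traceVecInf a.1⟫ * stdChar K (inFin K (a.2 * c)) := by
      conv_lhs => rw [← inInf_add_inFin x, ← sub_add_cancel x.2 c, map_add, mul_add, mul_add,
        AddChar.map_add_eq_mul, AddChar.map_add_eq_mul, adele_mul_inInf, adele_mul_inFin,
        adele_mul_inFin, h1, one_mul, stdChar_inInf, traceInf_mul_eq_inner]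
    simp only [g, z, h2, Circle.coe_mul, map_mul]
    ring
  have hint : adeleFourier μ (pureSB h c m) a =
      z * ∫ v, g v ∂(r • (volume : Measure (CoordSpace K))) := by
    unfold adeleFourier
    rw [integral_congr_ae (Eventually.of_forall hpt), integral_const_mul,
      integral_indicator (isClopen_finCoset c m).isOpen.measurableSet, ← hρ,
      integral_map hcE.measurable.aemeasurable hgc.measurable.aestronglyMeasurable]
  have hfour : ∫ v, g v = 𝓕 (h : CoordSpace K → ℂ) (-traceVecInf a.1) := by
    rw [Real.fourier_eq']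
    refine integral_congr_ae (Eventually.of_forall fun v => ?_)
    simp only [g, inner_neg_right, smul_eq_mul, expNeg_apply, AddCircle.toCircle_apply_mk,
      Circle.coe_exp, ← Complex.exp_conj, map_mul, Complex.conj_ofReal, Complex.conj_I]
    rw [mul_comm]
    congr 2
    push_cast
    ring
  rw [hint, integral_smul_nnreal_measure, hfour, NNReal.smul_def, Complex.real_smul]
  ring

theorem adeleFourier_add {μ : Measure (AdeleRing (𝓞 K) K)} [IsAddHaarMeasure μ]
    (hμ : μ (funDom K) = 1) {f g : 𝐀 → ℂ} (hf : f ∈ schwartzBruhat K) (hg : g ∈ schwartzBruhat K)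
    (a : 𝐀) : adeleFourier μ (f + g) a = adeleFourier μ f a + adeleFourier μ g a := by
  have hi : ∀ {p : 𝐀 → ℂ}, p ∈ schwartzBruhat K → Integrable
      (fun x => p x * starRingEnd ℂ ((stdChar K (a * x) : Circle) : ℂ)) μ := fun {p} hp => by
    obtain ⟨hpc, hpn, -⟩ := schwartzBruhat_props (μ := μ) hμ hp
    exact (integrable_of_normallySummable hμ hpc hpn).mono
      (hpc.mul (Complex.continuous_conj.comp (continuous_subtype_val.comp ((continuous_stdChar K).comp
        (continuous_const_mul a))))).measurable.aestronglyMeasurable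
      (Eventually.of_forall fun x => by rw [norm_mul, RCLike.norm_conj, Circle.norm_coe, mul_one])
  simp only [adeleFourier, Pi.add_apply, add_mul]
  exact integral_add (hi hf) (hi hg)

theorem adeleFourier_smul (μ : Measure (AdeleRing (𝓞 K) K)) (s : ℂ) (f : 𝐀 → ℂ) :
    adeleFourier μ (s • f) = s • adeleFourier μ f := funext fun a => by
  simp only [adeleFourier, Pi.smul_apply, smul_eq_mul, mul_assoc, integral_const_mul]

/-- **The Fourier transform preserves the Schwartz-Bruhat space.** -/
theorem adeleFourier_mem {μ : Measure (AdeleRing (𝓞 K) K)} [IsAddHaarMeasure μ]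
    (hμ : μ (funDom K) = 1) {f : 𝐀 → ℂ} (hf : f ∈ schwartzBruhat K) :
    adeleFourier μ f ∈ schwartzBruhat K := by
  induction hf using Submodule.span_induction with
  | mem f hf =>
    obtain ⟨h, c, m, hm, rfl⟩ := hf
    obtain ⟨r, hr⟩ := exists_fourier_pureSB μ h c hm
    have he : adeleFourier μ (pureSB h c m) = fun a : 𝐀 =>
        SchwartzMap.compCLMOfContinuousLinearEquiv ℂ
          ((matEquiv (det_pairMat_ne_zero K)).trans (ContinuousLinearEquiv.neg ℝ)) (𝓕 h)
            (coordE K a.1) * dualFactor r c m a.2 := funext fun a => by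
      rw [hr, SchwartzMap.compCLMOfContinuousLinearEquiv_apply, Function.comp_apply,
        SchwartzMap.fourier_coe]
      rfl
    rw [he]
    exact mem_schwartzBruhat_coord _ (isLocallyConstant_dualFactor r c m)
      (hasCompactSupport_dualFactor r c hm)
  | zero =>
    rw [show adeleFourier μ (0 : 𝐀 → ℂ) = 0 from funext fun a => by simp [adeleFourier]]
    exact (schwartzBruhat K).zero_mem
  | add f g hf hg ihf ihg =>
    rw [show adeleFourier μ (f + g) = adeleFourier μ f + adeleFourier μ g from
      funext fun a => adeleFourier_add hμ hf hg a]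
    exact add_mem ihf ihg
  | smul s f _ ih =>
    rw [adeleFourier_smul]
    exact Submodule.smul_mem _ s ih

/-- **Composition with an idele preserves the space.** -/
theorem comp_mul_mem (a : Idele K) {f : 𝐀 → ℂ} (hf : f ∈ schwartzBruhat K) :
    (fun x => f ((a : 𝐀) * x)) ∈ schwartzBruhat K := by
  induction hf using Submodule.span_induction with
  | mem f hf =>
    obtain ⟨h, c, m, hm, rfl⟩ := hf
    have hdet : (mulMat (a : 𝐀).1).det ≠ 0 := fun e => by
      have h1 := abs_det_mulMat (a : 𝐀).1
      rw [e, abs_zero] at h1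
      exact (Finset.prod_pos fun w _ => pow_pos (norm_pos_iff.2 (infComp w a).ne_zero) _).ne' h1.symm
    set U : Set (FiniteAdeleRing (𝓞 K) K) :=
      {b | 𝐅 (m : K)⁻¹ * ((a : 𝐀).2 * b - c) ∈ finInt K}
    have hU : IsClopen U := by
      have hc : Continuous fun b : FiniteAdeleRing (𝓞 K) K =>
          𝐅 (m : K)⁻¹ * ((a : 𝐀).2 * b - c) :=
        continuous_const.mul ((continuous_const.mul continuous_id).sub continuous_const)
      exact IsClopen.preimage ⟨(finInt K).isClosed_of_isOpen (isOpen_finInt K), isOpen_finInt K⟩ hc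
    have hlc : IsLocallyConstant (U.indicator fun _ => (1 : ℂ)) :=
      (LocallyConstant.charFn ℂ hU).isLocallyConstant
    have hcs : HasCompactSupport (U.indicator fun _ => (1 : ℂ)) := by
      refine HasCompactSupport.intro ((isCompact_finInt K).image
        (f := fun u => (↑a⁻¹ : 𝐀).2 * (c + 𝐅 (m : K) * u))
        (continuous_const.mul (continuous_const.add (continuous_const.mul continuous_id))))
        fun b hb => Set.indicator_of_notMem (s := U) (fun hbU => hb
          ⟨𝐅 (m : K)⁻¹ * ((a : 𝐀).2 * b - c), hbU, ?_⟩) _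
      have h1 : (↑a⁻¹ : 𝐀).2 * (a : 𝐀).2 = 1 := congrArg Prod.snd a.inv_mul
      show (↑a⁻¹ : 𝐀).2 * (c + 𝐅 (m : K) * (𝐅 (m : K)⁻¹ * ((a : 𝐀).2 * b - c))) = b
      rw [← mul_assoc (𝐅 (m : K)), ← map_mul, mul_inv_cancel₀ (Nat.cast_ne_zero.2 hm), map_one,
        one_mul, add_sub_cancel, ← mul_assoc, h1, one_mul]
    have he : (fun x : 𝐀 => pureSB h c m ((a : 𝐀) * x)) = fun x : 𝐀 =>
        SchwartzMap.compCLMOfContinuousLinearEquiv ℂ (matEquiv hdet) h (coordE K x.1) *
          U.indicator (fun _ => (1 : ℂ)) x.2 := funext fun x => by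
      rw [SchwartzMap.compCLMOfContinuousLinearEquiv_apply, Function.comp_apply, matEquiv_apply,
        ← mulLin, ← coordE_mul, pureSB]
      by_cases hx : x.2 ∈ U
      · rw [Set.indicator_of_mem (show (a : 𝐀) * x ∈ finCoset c m from hx), Set.indicator_of_mem hx,
          mul_one]
        rfl
      · rw [Set.indicator_of_notMem (show (a : 𝐀) * x ∉ finCoset c m from hx),
          Set.indicator_of_notMem hx, mul_zero]
    rw [he]
    exact mem_schwartzBruhat_coord _ hlc hcs
  | zero => exact (schwartzBruhat K).zero_mem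
  | add f g _ _ ihf ihg => exact add_mem ihf ihg
  | smul s f _ ih => exact Submodule.smul_mem _ s ih

end FA.TateThesis

end
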