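import Fermat.Agent.TateThesis.Decay

/-!
# Fourier inversion on the adeles

Riemann-Roch applied twice makes the double transform agree with the reflection in every sum over
a translate of a multiple of the field, and letting the multiple tend to infinity isolates one
value.
-/

set_option autoImplicit false
set_option linter.unusedSectionVars false
set_option linter.style.haveILetI false

noncomputable section

open NumberField IsDedekindDomain MeasureTheory MeasureTheory.Measure
open Filter Topology Module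
open FA.AdeleDual FA.Ideles FA.IdeleClass
open scoped Classical SchwartzMap

set_option maxHeartbeats 400000

namespace FA.TateThesis

universe u

variable {K : Type u} [Field K] [NumberField K]

local notation "𝐀" => AdeleRing (𝓞 K) K
local notation "𝐊" => algebraMap K (AdeleRing (𝓞 K) K)

theorem tsum_field_eq {F : K → ℂ} (hF : Summable F) :
    ∑' k : K, F k = F 0 + ∑' k : Kˣ, F (k : K) := by
  rw [hF.tsum_eq_add_tsum_ite 0]
  congr 1
  rw [← (Units.val_injective (α := K)).tsum_eq
    (f := fun k : K => if k = 0 then 0 else F k) (fun k hk => ?_)]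
  · exact tsum_congr fun k => if_neg k.ne_zero
  · exact ⟨Units.mk0 k fun h => hk (if_pos h), rfl⟩

/-- Translation preserves the Schwartz-Bruhat space. -/
theorem comp_add_mem (y : 𝐀) {f : 𝐀 → ℂ} (hf : f ∈ schwartzBruhat K) :
    (fun x => f (x + y)) ∈ schwartzBruhat K := by
  induction hf using Submodule.span_induction with
  | mem f hf =>
    obtain ⟨h, c, m, hm, rfl⟩ := hf
    refine Submodule.subset_span ⟨SchwartzMap.compSubConstCLM ℂ (-coordE K y.1) h, c - y.2, m, hm,
      funext fun x => ?_⟩
    have hiff : x + y ∈ finCoset c m ↔ x ∈ finCoset (c - y.2) m := by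
      show algebraMap K (FiniteAdeleRing (𝓞 K) K) (m : K)⁻¹ * (x.2 + y.2 - c) ∈ finInt K ↔
        algebraMap K (FiniteAdeleRing (𝓞 K) K) (m : K)⁻¹ * (x.2 - (c - y.2)) ∈ finInt K
      rw [sub_sub_eq_add_sub]
    unfold pureSB
    by_cases hx : x ∈ finCoset (c - y.2) m
    · rw [Set.indicator_of_mem hx, Set.indicator_of_mem (hiff.2 hx),
        SchwartzMap.compSubConstCLM_apply, sub_neg_eq_add, ← map_add]
      rfl
    · rw [Set.indicator_of_notMem hx, Set.indicator_of_notMem fun h' => hx (hiff.1 h')]
  | zero => exact (schwartzBruhat K).zero_mem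
  | add f g _ _ ihf ihg => exact add_mem ihf ihg
  | smul s f _ ih => exact Submodule.smul_mem _ s ih

variable [MeasurableSpace (AdeleRing (𝓞 K) K)] [BorelSpace (AdeleRing (𝓞 K) K)]

/-- Reflection preserves it. -/
theorem comp_neg_mem {f : 𝐀 → ℂ} (hf : f ∈ schwartzBruhat K) :
    (fun x => f (-x)) ∈ schwartzBruhat K := by
  have h := comp_mul_mem (-1 : Idele K) hf
  rwa [show (fun x => f (((-1 : Idele K) : 𝐀) * x)) = fun x => f (-x) from funext fun x => by
    rw [Units.val_neg, Units.val_one, neg_mul, one_mul]] at h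

theorem adeleFourier_comp_add (μ : Measure 𝐀) [IsAddHaarMeasure μ] (f : 𝐀 → ℂ) (y b : 𝐀) :
    adeleFourier μ (fun x => f (x + y)) b =
      ((stdChar K (b * y) : Circle) : ℂ) * adeleFourier μ f b := by
  unfold adeleFourier
  rw [← integral_const_mul, ← integral_add_right_eq_self (μ := μ)
    (fun x => ((stdChar K (b * y) : Circle) : ℂ) *
      (f x * starRingEnd ℂ ((stdChar K (b * x) : Circle) : ℂ))) y]
  refine integral_congr_ae (Eventually.of_forall fun x => ?_)
  simp only [mul_add, AddChar.map_add_eq_mul, Circle.coe_mul, map_mul]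
  rw [mul_left_comm, mul_left_comm _ (starRingEnd ℂ _), Complex.mul_conj', Circle.norm_coe]
  simp

theorem adeleFourier_char_mul (μ : Measure 𝐀) (F : 𝐀 → ℂ) (y x : 𝐀) :
    adeleFourier μ (fun b => ((stdChar K (b * y) : Circle) : ℂ) * F b) x =
      adeleFourier μ F (x - y) := by
  unfold adeleFourier
  refine integral_congr_ae (Eventually.of_forall fun b => ?_)
  show ((stdChar K (b * y) : Circle) : ℂ) * F b * _ =
    F b * starRingEnd ℂ ((stdChar K ((x - y) * b) : Circle) : ℂ)
  rw [sub_mul, sub_eq_add_neg, AddChar.map_add_eq_mul, AddChar.map_neg_eq_inv, Circle.coe_mul,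
    map_mul (starRingEnd ℂ), Circle.coe_inv_eq_conj, Complex.conj_conj, mul_comm y b]
  ring

/-- **Fourier inversion.** -/
theorem fourier_inversion {μ : Measure 𝐀} [IsAddHaarMeasure μ] (hμ : μ (funDom K) = 1) {f : 𝐀 → ℂ}
    (hf : f ∈ schwartzBruhat K) (x : 𝐀) : adeleFourier μ (adeleFourier μ f) x = f (-x) := by
  have hsum : ∀ {p : 𝐀 → ℂ}, p ∈ schwartzBruhat K → ∀ a : Idele K,
      ∑' k : K, adeleFourier μ (adeleFourier μ p) ((a : 𝐀) * 𝐊 k) =
        ∑' k : K, p (-((a : 𝐀) * 𝐊 k)) := fun {p} hp a => by
    have h1 := riemannRoch hμ hp a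
    have h2 := riemannRoch hμ (adeleFourier_mem hμ hp) a⁻¹
    rw [inv_inv] at h2
    rw [h2] at h1
    have h3 : (ideleAbs K a⁻¹)⁻¹ = ideleAbs K a :=
      inv_eq_of_mul_eq_one_left (by rw [← map_mul, mul_inv_cancel, map_one])
    rw [h3, ← mul_assoc, ← Complex.ofReal_mul, inv_mul_cancel₀ (ideleAbs_pos a).ne',
      Complex.ofReal_one, one_mul] at h1
    rw [← h1, ← (Equiv.neg K).tsum_eq fun k => p ((a : 𝐀) * 𝐊 k)]
    exact tsum_congr fun k => by rw [Equiv.neg_apply, map_neg, mul_neg]
  set g : 𝐀 → ℂ := fun z => adeleFourier μ (adeleFourier μ f) z - f (-z)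
  have hg : g ∈ schwartzBruhat K :=
    sub_mem (adeleFourier_mem hμ (adeleFourier_mem hμ hf)) (comp_neg_mem hf)
  have hgy : ∀ (y : 𝐀) (a : Idele K), ∑' k : K, g ((a : 𝐀) * 𝐊 k - y) = 0 := fun y a => by
    have hfy := comp_add_mem y hf
    have h := hsum hfy a
    have e : adeleFourier μ (fun z => f (z + y)) =
        fun b => ((stdChar K (b * y) : Circle) : ℂ) * adeleFourier μ f b :=
      funext fun b => adeleFourier_comp_add μ f y b
    rw [e] at h
    simp only [adeleFourier_char_mul] at h
    have s1 := summable_norm_translate hμ (comp_mul_mem a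
      (comp_add_mem (-y) (adeleFourier_mem hμ (adeleFourier_mem hμ hf))))
    have s2 := summable_norm_translate hμ (comp_mul_mem a (comp_neg_mem hfy))
    simp only [← sub_eq_add_neg] at s1
    simp only [g, neg_sub']
    rw [Summable.tsum_sub s1.of_norm (by simpa [sub_neg_eq_add] using s2.of_norm), h, sub_eq_zero]
    exact tsum_congr fun k => by rw [sub_neg_eq_add]
  refine sub_eq_zero.1 (show g x = 0 from ?_)
  set h : 𝐀 → ℂ := fun z => g (z + x)
  have hh : h ∈ schwartzBruhat K := comp_add_mem x hg
  have hb : ∀ t : ℝ, ‖g x‖ ≤ fieldSum h (lineIdele K t) := fun t => by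
    have hs := (summable_norm_translate hμ (comp_mul_mem (lineIdele K t) hh)).of_norm
    have h0 : ∑' k : K, h ((lineIdele K t : 𝐀) * 𝐊 k) = 0 := by
      have := hgy (-x) (lineIdele K t)
      simp only [sub_neg_eq_add] at this
      exact this
    rw [tsum_field_eq hs, map_zero, mul_zero, add_eq_zero_iff_eq_neg] at h0
    calc ‖g x‖ = ‖h 0‖ := by simp [h]
      _ = _ := by rw [h0, norm_neg]
      _ ≤ fieldSum h (lineIdele K t) := norm_tsum_le_tsum_norm
          ((summable_norm_translate hμ (comp_mul_mem (lineIdele K t) hh)).comp_injective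
            (i := (Units.val : Kˣ → K)) Units.val_injective)
  exact norm_le_zero_iff.1 (ge_of_tendsto' (tendsto_fieldSum_line (isRapid_of_mem hh)) hb)

end FA.TateThesis

end
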