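import Fermat.Agent.AdeleDuality.LocConst
import Mathlib.Topology.Metrizable.Uniformity
import Mathlib.Topology.EMetricSpace.Basic

/-!
# The adeles and the ideles are second countable

The multiples of the integral adeles give a countable basis of neighbourhoods of zero, and the
adeles are σ-compact.
-/

set_option autoImplicit false
set_option linter.unusedSectionVars false
set_option linter.style.haveILetI false

noncomputable section

open NumberField IsDedekindDomain
open Filter Topology Module TopologicalSpace
open FA.AdeleDual
open scoped Classical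

set_option maxHeartbeats 400000

namespace FA.TateThesis

universe u

variable {K : Type u} [Field K] [NumberField K]

theorem natMulInt_mem_nhds {N : ℕ} :
    (natMulInt K N : Set (FiniteAdeleRing (𝓞 K) K)) ∈ 𝓝 0 := by
  have h := (isOpen_natMulInt (K := K) N 0).mem_nhds
    (show (0 : FiniteAdeleRing (𝓞 K) K) - 0 ∈ natMulInt K N by rw [sub_zero]; exact zero_mem _)
  simp only [sub_zero] at h
  exact h

variable (K) in
/-- A countable basis at zero of the finite adeles. -/
theorem hasBasis_finite_nhds_zero :
    (𝓝 (0 : FiniteAdeleRing (𝓞 K) K)).HasBasis (fun N : ℕ => N ≠ 0)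
      fun N => (natMulInt K N : Set (FiniteAdeleRing (𝓞 K) K)) :=
  ⟨fun _ => ⟨fun hW => (exists_nat_mul_subset hW).imp fun _ h => ⟨h.1, h.2⟩,
    fun ⟨_, _, h⟩ => mem_of_superset natMulInt_mem_nhds h⟩⟩

variable (K) in
theorem secondCountable_adele : SecondCountableTopology (AdeleRing (𝓞 K) K) := by
  haveI : (𝓝 (0 : FiniteAdeleRing (𝓞 K) K)).IsCountablyGenerated :=
    (hasBasis_finite_nhds_zero K).isCountablyGenerated
  haveI : FirstCountableTopology (InfiniteAdeleRing K) := by
    show FirstCountableTopology ((w : InfinitePlace K) → w.Completion)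
    infer_instance
  haveI : (𝓝 (0 : AdeleRing (𝓞 K) K)).IsCountablyGenerated := by
    rw [show 𝓝 (0 : AdeleRing (𝓞 K) K) =
      𝓝 (0 : InfiniteAdeleRing K) ×ˢ 𝓝 (0 : FiniteAdeleRing (𝓞 K) K) from nhds_prod_eq]
    exact @Filter.prod.isCountablyGenerated _ _ _ _ (FirstCountableTopology.nhds_generated_countable _)
      (hasBasis_finite_nhds_zero K).isCountablyGenerated
  letI : UniformSpace (AdeleRing (𝓞 K) K) := IsTopologicalAddGroup.rightUniformSpace _
  haveI : IsUniformAddGroup (AdeleRing (𝓞 K) K) := isUniformAddGroup_of_addCommGroup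
  haveI := IsUniformAddGroup.uniformity_countably_generated (α := AdeleRing (𝓞 K) K)
  letI := TopologicalSpace.pseudoMetrizableSpacePseudoMetric (AdeleRing (𝓞 K) K)
  haveI := sigmaCompact_adele K
  exact EMetric.secondCountable_of_sigmaCompact _

variable (K) in
theorem secondCountable_idele : SecondCountableTopology (AdeleRing (𝓞 K) K)ˣ := by
  haveI := secondCountable_adele K
  haveI : SecondCountableTopology (AdeleRing (𝓞 K) K)ᵐᵒᵖ :=
    MulOpposite.opHomeomorph.symm.isEmbedding.secondCountableTopology
  exact Units.isEmbedding_embedProduct.secondCountableTopology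

variable (K) in
theorem locallyCompact_idele : LocallyCompactSpace (AdeleRing (𝓞 K) K)ˣ :=
  haveI := locallyCompact_adele K
  inferInstance

end FA.TateThesis

end
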