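import Fermat.Agent.TateThesis.IdeleMeasure
import Mathlib.Analysis.SpecialFunctions.ImproperIntegrals
import Mathlib.Analysis.Calculus.ParametricIntegral

/-!
# The zeta integrals

Integrals over the ideles unfold to the domain, where the sum over the field is bounded by the
decay estimates: the integral converges for real part above one, and over absolute value above one
it is entire.
-/

set_option autoImplicit false
set_option linter.unusedSectionVars false
set_option linter.style.haveILetI false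

noncomputable section

open NumberField IsDedekindDomain MeasureTheory MeasureTheory.Measure
open Filter Topology Module
open FA.AdeleDual FA.Ideles FA.IdeleClass
open scoped Classical Pointwise NNReal ENNReal

set_option maxHeartbeats 800000

namespace FA.TateThesis

universe u

variable {K : Type u} [Field K] [NumberField K]

local notation "𝐀" => AdeleRing (𝓞 K) K
local notation "𝐊" => algebraMap K (AdeleRing (𝓞 K) K)
local notation "𝐆" => Idele K
local notation "Γ" => MonoidHom.range (principal (K := K))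

attribute [local instance] secondCountable_idele locallyCompact_idele countable_field

instance countable_units_field : Countable Kˣ := by
  haveI := countable_field K
  exact Units.val_injective.countable

/-- The power of the absolute value. -/
def absPow (s : ℂ) (x : Idele K) : ℂ := Complex.exp (s * (logAbs x : ℂ))

theorem norm_absPow (s : ℂ) (x : 𝐆) : ‖absPow s x‖ = Real.exp (s.re * logAbs x) := by
  simp [absPow, Complex.norm_exp]

theorem absPow_smul (s : ℂ) (γ : Γ) (x : 𝐆) : absPow s (γ • x) = absPow s x := by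
  rw [absPow, absPow, logAbs_smul]

theorem absPow_eq_cpow (s : ℂ) (x : 𝐆) : absPow s x = (ideleAbs K x : ℂ) ^ s := by
  rw [absPow, Complex.cpow_def_of_ne_zero (Complex.ofReal_ne_zero.2 (ideleAbs_pos x).ne'),
    ← Complex.ofReal_log (ideleAbs_pos x).le, mul_comm]
  rfl

theorem continuous_absPow (s : ℂ) : Continuous (absPow (K := K) s) :=
  Complex.continuous_exp.comp (continuous_const.mul (Complex.continuous_ofReal.comp continuous_logAbs))

/-- A unitary character of the idele classes. -/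
structure IsClassChar (χ : Idele K →* ℂˣ) : Prop where
  continuous : Continuous χ
  norm_eq : ∀ x, ‖((χ x : ℂˣ) : ℂ)‖ = 1
  principal_eq : ∀ k, χ (principal k) = 1

theorem IsClassChar.apply_smul {χ : 𝐆 →* ℂˣ} (hχ : IsClassChar χ) (γ : Γ) (x : 𝐆) :
    χ (γ • x) = χ x := by
  obtain ⟨k, hk⟩ := γ.2
  show χ ((γ : 𝐆) * x) = χ x
  rw [map_mul, ← hk, hχ.principal_eq, one_mul]

theorem IsClassChar.inv {χ : 𝐆 →* ℂˣ} (hχ : IsClassChar χ) : IsClassChar χ⁻¹ where
  continuous := hχ.continuous.inv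
  norm_eq x := by
    rw [MonoidHom.inv_apply, Units.val_inv_eq_inv_val, norm_inv, hχ.norm_eq, inv_one]
  principal_eq k := by rw [MonoidHom.inv_apply, hχ.principal_eq, inv_one]

/-- The integrand. -/
def zetaTerm (f : AdeleRing (𝓞 K) K → ℂ) (χ : Idele K →* ℂˣ) (s : ℂ) (x : Idele K) : ℂ :=
  f (x : AdeleRing (𝓞 K) K) * ((χ x : ℂˣ) : ℂ) * absPow s x

/-- The sum over the field elements other than zero. -/
def unitSum (f : AdeleRing (𝓞 K) K → ℂ) (x : Idele K) : ℂ :=
  ∑' k : Kˣ, f ((x : AdeleRing (𝓞 K) K) * algebraMap K (AdeleRing (𝓞 K) K) (k : K))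

theorem principal_mul_val (k : Kˣ) (x : 𝐆) :
    ((principal k * x : 𝐆) : 𝐀) = (x : 𝐀) * 𝐊 (k : K) := by
  rw [Units.val_mul, mul_comm]
  rfl

variable (K) in
/-- The field elements other than zero as principal ideles. -/
def unitsEquiv : Kˣ ≃ MonoidHom.range (principal (K := K)) :=
  (MonoidHom.ofInjective principal_injective).toEquiv

theorem unitsEquiv_smul (k : Kˣ) (x : 𝐆) : (unitsEquiv K k) • x = principal k * x := rfl

/-- The part above absolute value one. -/
def zetaUpper [MeasurableSpace (Idele K)] (ν : Measure (Idele K)) (f : AdeleRing (𝓞 K) K → ℂ)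
    (χ : Idele K →* ℂˣ) (s : ℂ) : ℂ :=
  ∫ x in logAbs ⁻¹' Set.Ioi 0, zetaTerm f χ s x ∂ν

section

variable [MeasurableSpace (AdeleRing (𝓞 K) K)] [BorelSpace (AdeleRing (𝓞 K) K)]
variable {μ : Measure (AdeleRing (𝓞 K) K)} [IsAddHaarMeasure μ]

theorem summable_unitSum (hμ : μ (funDom K) = 1) {f : 𝐀 → ℂ} (hf : f ∈ schwartzBruhat K) (x : 𝐆) :
    Summable fun k : Kˣ => ‖f ((x : 𝐀) * 𝐊 (k : K))‖ :=
  (summable_norm_translate hμ (comp_mul_mem x hf)).comp_injective
    (i := (Units.val : Kˣ → K)) Units.val_injective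

theorem continuous_of_mem (hμ : μ (funDom K) = 1) {f : 𝐀 → ℂ} (hf : f ∈ schwartzBruhat K) :
    Continuous f :=
  (schwartzBruhat_props (μ := μ) hμ hf).1

/-- **Riemann-Roch for the sums over the units.** -/
theorem unitSum_eq (hμ : μ (funDom K) = 1) {f : 𝐀 → ℂ} (hf : f ∈ schwartzBruhat K) (x : 𝐆) :
    unitSum f x = absPow (-1) x * unitSum (adeleFourier μ f) x⁻¹ +
      absPow (-1) x * adeleFourier μ f 0 - f 0 := by
  have h := riemannRoch hμ hf x
  rw [tsum_field_eq (summable_norm_translate hμ (comp_mul_mem x hf)).of_norm,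
    tsum_field_eq (summable_norm_translate hμ (comp_mul_mem x⁻¹ (adeleFourier_mem hμ hf))).of_norm,
    map_zero, mul_zero, mul_zero] at h
  have e : (((ideleAbs K x)⁻¹ : ℝ) : ℂ) = absPow (-1) x := by
    rw [absPow, neg_one_mul, ← Complex.ofReal_neg, ← Complex.ofReal_exp, Real.exp_neg, exp_logAbs]
  rw [e, mul_add] at h
  unfold unitSum
  linear_combination h

variable [MeasurableSpace (Idele K)] [BorelSpace (Idele K)]
variable {ν : Measure (Idele K)} [IsHaarMeasure ν] {D : Set (Idele K)}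

theorem continuous_zetaTerm {f : 𝐀 → ℂ} (hf : Continuous f) {χ : 𝐆 →* ℂˣ} (hχ : IsClassChar χ)
    (s : ℂ) : Continuous (zetaTerm f χ s) :=
  ((hf.comp Units.continuous_val).mul (Units.continuous_val.comp hχ.continuous)).mul
    (continuous_absPow s)

theorem norm_zetaTerm {f : 𝐀 → ℂ} {χ : 𝐆 →* ℂˣ} (hχ : IsClassChar χ) (s : ℂ) (x : 𝐆) :
    ‖zetaTerm f χ s x‖ = ‖f (x : 𝐀)‖ * Real.exp (s.re * logAbs x) := by
  rw [zetaTerm, norm_mul, norm_mul, hχ.norm_eq, mul_one, norm_absPow]

/-- **Integrability from a bound on the domain.** -/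
theorem integrableOn_of_bound (hμ : μ (funDom K) = 1) (hDm : MeasurableSet D)
    (hDW : D ⊆ lineSet K) (hD : IsFundamentalDomain Γ D ν) {f : 𝐀 → ℂ}
    (hf : f ∈ schwartzBruhat K) {χ : 𝐆 →* ℂˣ} (hχ : IsClassChar χ) {s : ℂ} {S : Set ℝ}
    (hS : MeasurableSet S) {g : ℝ → ℝ} (hg : IntegrableOn g S)
    (hle : ∀ b ∈ repsSet K, ∀ t ∈ S,
      fieldSum f (b * lineIdele K t) * Real.exp (s.re * t) ≤ g t) :
    IntegrableOn (zetaTerm f χ s) (logAbs ⁻¹' S) ν := by
  have hfc := continuous_of_mem hμ hf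
  have hpre : MeasurableSet (logAbs ⁻¹' S : Set 𝐆) := continuous_logAbs.measurable hS
  refine ⟨(continuous_zetaTerm hfc hχ s).measurable.aestronglyMeasurable, ?_⟩
  rw [hasFiniteIntegral_iff_enorm]
  set F : 𝐆 → ℝ≥0∞ := (logAbs ⁻¹' S).indicator fun x => ‖zetaTerm f χ s x‖ₑ with hF
  have hFm : Measurable F := (continuous_zetaTerm hfc hχ s).measurable.enorm.indicator hpre
  obtain ⟨V, -, hV⟩ := exists_map_logAbs D hDW hD
  set G : ℝ → ℝ≥0∞ := S.indicator fun t => ‖g t‖ₑ with hG
  have hGm : AEMeasurable G (volume : Measure ℝ) :=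
    (aemeasurable_indicator_iff hS).2 hg.aestronglyMeasurable.enorm
  have hbound : ∀ x ∈ D, ∑' γ : Γ, F (γ • x) ≤ G (logAbs x) := fun x hx => by
    obtain ⟨b, hb, hbx⟩ := exists_of_mem_lineSet (hDW hx)
    by_cases hxS : logAbs x ∈ S
    swap
    · refine le_of_eq_of_le (ENNReal.tsum_eq_zero.2 fun γ => ?_) zero_le
      exact Set.indicator_of_notMem
        (by rw [Set.mem_preimage, logAbs_smul]; exact hxS) _
    have h1 : ∀ k : Kˣ, F ((unitsEquiv K k) • x) =
        ENNReal.ofReal (‖f ((x : 𝐀) * 𝐊 (k : K))‖ * Real.exp (s.re * logAbs x)) := fun k => by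
      rw [hF, Set.indicator_of_mem (by rw [Set.mem_preimage, logAbs_smul]; exact hxS),
        ← ofReal_norm, norm_zetaTerm hχ, logAbs_smul, unitsEquiv_smul, principal_mul_val]
    rw [← (unitsEquiv K).tsum_eq, tsum_congr h1,
      ← ENNReal.ofReal_tsum_of_nonneg (fun k => by positivity)
        ((summable_unitSum hμ hf x).mul_right _), tsum_mul_right, hG, Set.indicator_of_mem hxS,
      ← ofReal_norm]
    refine ENNReal.ofReal_le_ofReal (le_trans ?_ (Real.le_norm_self _))
    have h := hle b hb _ hxS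
    rw [← hbx] at h
    exact h
  calc ∫⁻ x in logAbs ⁻¹' S, ‖zetaTerm f χ s x‖ₑ ∂ν
      = ∫⁻ x, F x ∂ν := (lintegral_indicator hpre _).symm
    _ = ∑' γ : Γ, ∫⁻ x in D, F (γ • x) ∂ν := hD.lintegral_eq_tsum'' F
    _ = ∫⁻ x in D, ∑' γ : Γ, F (γ • x) ∂ν :=
        (lintegral_tsum fun γ => (hFm.comp (continuous_const_mul ((γ : Γ) : 𝐆)).measurable).aemeasurable).symm
    _ ≤ ∫⁻ x in D, G (logAbs x) ∂ν := lintegral_mono_ae (ae_restrict_of_forall_mem hDm hbound)
    _ = V * ∫⁻ t, G t := by
        rw [← lintegral_map' (by rw [hV]; exact hGm.smul_measure (V : ℝ≥0∞))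
          continuous_logAbs.measurable.aemeasurable, hV, lintegral_smul_measure]
        rfl
    _ < ⊤ := by
        refine ENNReal.mul_lt_top ENNReal.coe_lt_top ?_
        rw [hG, lintegral_indicator hS]
        exact hasFiniteIntegral_iff_enorm.1 hg.hasFiniteIntegral

variable (hμ : μ (funDom K) = 1) (hDm : MeasurableSet D) (hDW : D ⊆ lineSet K)
  (hD : IsFundamentalDomain (MonoidHom.range (principal (K := K))) D ν)
include hμ hDm hDW hD

/-- **Above absolute value one every exponent converges.** -/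
theorem integrableOn_upper {f : 𝐀 → ℂ} (hf : f ∈ schwartzBruhat K) {χ : 𝐆 →* ℂˣ}
    (hχ : IsClassChar χ) (s : ℂ) : IntegrableOn (zetaTerm f χ s) (logAbs ⁻¹' Set.Ioi 0) ν := by
  obtain ⟨N, hN⟩ := exists_nat_gt s.re
  obtain ⟨C, hC, hCb⟩ := exists_fieldSum_bound (isRapid_of_mem hf) (isCompact_repsSet K) N
  refine integrableOn_of_bound hμ hDm hDW hD hf hχ measurableSet_Ioi
    (g := fun t => C * Real.exp ((s.re - N) * t))
    ((integrableOn_exp_mul_Ioi (by linarith) 0).const_mul C) fun b hb t ht => ?_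
  refine (mul_le_mul_of_nonneg_right ((hCb b hb t).2.1 (le_of_lt ht)) (Real.exp_pos _).le).trans_eq ?_
  rw [mul_assoc, ← Real.exp_add]
  ring_nf

/-- **Below absolute value one the real part has to exceed one.** -/
theorem integrableOn_lower {f : 𝐀 → ℂ} (hf : f ∈ schwartzBruhat K) {χ : 𝐆 →* ℂˣ}
    (hχ : IsClassChar χ) {s : ℂ} (hs : 1 < s.re) :
    IntegrableOn (zetaTerm f χ s) (logAbs ⁻¹' Set.Iic 0) ν := by
  obtain ⟨C, hC, hCb⟩ := exists_fieldSum_bound (isRapid_of_mem hf) (isCompact_repsSet K) 0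
  refine integrableOn_of_bound hμ hDm hDW hD hf hχ measurableSet_Iic
    (g := fun t => C * Real.exp ((s.re - 1) * t))
    ((integrableOn_exp_mul_Iic (by linarith) 0).const_mul C) fun b hb t ht => ?_
  refine (mul_le_mul_of_nonneg_right ((hCb b hb t).2.2 ht) (Real.exp_pos _).le).trans_eq ?_
  rw [mul_assoc, ← Real.exp_add]
  ring_nf

/-- **Convergence for real part above one.** -/
theorem integrable_zetaTerm {f : 𝐀 → ℂ} (hf : f ∈ schwartzBruhat K) {χ : 𝐆 →* ℂˣ}
    (hχ : IsClassChar χ) {s : ℂ} (hs : 1 < s.re) : Integrable (zetaTerm f χ s) ν := by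
  rw [← integrableOn_univ, show (Set.univ : Set 𝐆) = logAbs ⁻¹' Set.Ioi 0 ∪ logAbs ⁻¹' Set.Iic 0 by
    rw [← Set.preimage_union, Set.Ioi_union_Iic, Set.preimage_univ]]
  exact (integrableOn_upper hμ hDm hDW hD hf hχ s).union (integrableOn_lower hμ hDm hDW hD hf hχ hs)

/-- **That part is entire.** -/
theorem differentiable_zetaUpper {f : 𝐀 → ℂ} (hf : f ∈ schwartzBruhat K) {χ : 𝐆 →* ℂˣ}
    (hχ : IsClassChar χ) : Differentiable ℂ (zetaUpper ν f χ) := fun s₀ => by
  have hfc := continuous_of_mem hμ hf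
  refine (hasDerivAt_integral_of_dominated_loc_of_deriv_le
    (μ := ν.restrict (logAbs ⁻¹' Set.Ioi 0)) (Metric.ball_mem_nhds s₀ one_pos)
    (F := fun s x => zetaTerm f χ s x) (F' := fun s x => zetaTerm f χ s x * (logAbs x : ℂ))
    (bound := fun x => ‖zetaTerm f χ ((s₀.re + 2 : ℝ) : ℂ) x‖)
    (Eventually.of_forall fun s => (continuous_zetaTerm hfc hχ s).measurable.aestronglyMeasurable)
    (integrableOn_upper hμ hDm hDW hD hf hχ s₀) ?_ ?_
    (integrableOn_upper hμ hDm hDW hD hf hχ _).norm ?_).2.differentiableAt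
  · exact ((continuous_zetaTerm hfc hχ s₀).mul
      (Complex.continuous_ofReal.comp continuous_logAbs)).measurable.aestronglyMeasurable
  · refine ae_restrict_of_forall_mem (continuous_logAbs.measurable measurableSet_Ioi) fun x hx s hs => ?_
    have hpos : 0 < logAbs x := hx
    have hre : s.re ≤ s₀.re + 1 := by
      have h := (Complex.abs_re_le_norm (s - s₀)).trans (mem_ball_iff_norm.1 hs).le
      rw [Complex.sub_re] at h
      linarith [le_abs_self (s.re - s₀.re)]
    rw [norm_mul, norm_zetaTerm hχ, norm_zetaTerm hχ, Complex.norm_real, Real.norm_of_nonneg hpos.le,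
      Complex.ofReal_re, mul_assoc]
    refine mul_le_mul_of_nonneg_left ?_ (norm_nonneg _)
    calc Real.exp (s.re * logAbs x) * logAbs x
        ≤ Real.exp ((s₀.re + 1) * logAbs x) * Real.exp (logAbs x) :=
          mul_le_mul (Real.exp_le_exp.2 (mul_le_mul_of_nonneg_right hre hpos.le))
            (by linarith [Real.add_one_le_exp (logAbs x)]) hpos.le (Real.exp_pos _).le
      _ = Real.exp ((s₀.re + 2) * logAbs x) := by rw [← Real.exp_add]; ring_nf
  · refine Eventually.of_forall fun x s _ => ?_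
    have h := ((hasDerivAt_id s).mul_const (logAbs x : ℂ)).cexp.const_mul
      (f (x : 𝐀) * ((χ x : ℂˣ) : ℂ))
    simp only [id_eq, one_mul] at h
    simpa only [zetaTerm, absPow, mul_assoc] using h

/-- **Unfolding.** -/
theorem setIntegral_unfold {f : 𝐀 → ℂ} (hf : f ∈ schwartzBruhat K) {χ : 𝐆 →* ℂˣ}
    (hχ : IsClassChar χ) {s : ℂ} {S : Set ℝ} (hS : MeasurableSet S)
    (hint : IntegrableOn (zetaTerm f χ s) (logAbs ⁻¹' S) ν) :
    IntegrableOn ((logAbs ⁻¹' S).indicator fun x => ((χ x : ℂˣ) : ℂ) * absPow s x * unitSum f x)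
        D ν ∧
      ∫ x in logAbs ⁻¹' S, zetaTerm f χ s x ∂ν =
        ∫ x in D, (logAbs ⁻¹' S).indicator
          (fun x => ((χ x : ℂˣ) : ℂ) * absPow s x * unitSum f x) x ∂ν := by
  have hpre : MeasurableSet (logAbs ⁻¹' S : Set 𝐆) := continuous_logAbs.measurable hS
  set F : 𝐆 → ℂ := (logAbs ⁻¹' S).indicator (zetaTerm f χ s) with hF
  have hFm : Measurable F :=
    (continuous_zetaTerm (continuous_of_mem hμ hf) hχ s).measurable.indicator hpre
  have hFi : Integrable F ν := hint.integrable_indicator hpre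
  have hgm : ∀ γ : Γ, AEStronglyMeasurable (fun x => F (γ • x)) (ν.restrict D) := fun γ =>
    (hFm.comp (continuous_const_mul (γ : 𝐆)).measurable).aestronglyMeasurable
  have hfin : ∑' γ : Γ, ∫⁻ x in D, ‖F (γ • x)‖ₑ ∂ν ≠ ⊤ := by
    rw [← hD.lintegral_eq_tsum'' fun x => ‖F x‖ₑ]
    exact (hasFiniteIntegral_iff_enorm.1 hFi.hasFiniteIntegral).ne
  have hpt : ∀ x, HasSum (fun γ : Γ => F (γ • x))
      ((logAbs ⁻¹' S).indicator (fun x => ((χ x : ℂˣ) : ℂ) * absPow s x * unitSum f x) x) := fun x => by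
    by_cases hx : logAbs x ∈ S
    · rw [Set.indicator_of_mem (show x ∈ logAbs ⁻¹' S from hx), ← (unitsEquiv K).hasSum_iff]
      refine HasSum.congr_fun ((summable_unitSum hμ hf x).of_norm.hasSum.mul_left
        (((χ x : ℂˣ) : ℂ) * absPow s x)) fun k => ?_
      show F ((unitsEquiv K k) • x) = _
      rw [hF, Set.indicator_of_mem (by rw [Set.mem_preimage, logAbs_smul]; exact hx), zetaTerm,
        hχ.apply_smul, absPow_smul, unitsEquiv_smul, principal_mul_val]
      ring
    · rw [Set.indicator_of_notMem (show x ∉ logAbs ⁻¹' S from hx)]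
      refine HasSum.congr_fun hasSum_zero fun γ => ?_
      rw [hF, Set.indicator_of_notMem (by rw [Set.mem_preimage, logAbs_smul]; exact hx)]
  refine ⟨⟨aestronglyMeasurable_of_tendsto_ae (u := atTop)
    (f := fun t : Finset Γ => fun x => ∑ γ ∈ t, F (γ • x))
    (fun t => (Finset.measurable_sum t fun γ _ =>
      hFm.comp (continuous_const_mul (γ : 𝐆)).measurable).aestronglyMeasurable)
    (Eventually.of_forall fun x => hpt x), ?_⟩, ?_⟩
  · rw [hasFiniteIntegral_iff_enorm]
    refine lt_of_le_of_lt (lintegral_mono fun x => ?_)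
      (lt_of_eq_of_lt (lintegral_tsum fun γ => (hgm γ).enorm) hfin.lt_top)
    show ‖(logAbs ⁻¹' S).indicator _ x‖ₑ ≤ _
    rw [← (hpt x).tsum_eq]
    exact enorm_tsum_le_tsum_enorm
  · rw [← integral_indicator hpre, ← hF, hD.integral_eq_tsum'' _ hFi, ← integral_tsum hgm hfin]
    exact integral_congr_ae (Eventually.of_forall fun x => (hpt x).tsum_eq)

end

end FA.TateThesis

end
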