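import Fermat.Agent.TateThesis.RiemannRoch

/-!
# Decay of the sums over the field along the line

On a compact set of ideles times the scalar ideles at infinity, the sum of a Schwartz-Bruhat
function over the nonzero elements of the field decreases rapidly at infinity and grows at most like
the inverse of the absolute value at zero.
-/

set_option autoImplicit false
set_option linter.unusedSectionVars false
set_option linter.style.haveILetI false

noncomputable section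

open NumberField NumberField.InfinitePlace IsDedekindDomain
open Filter Topology Module
open FA.AdeleDual FA.Ideles FA.IdeleClass
open scoped Classical

set_option maxHeartbeats 400000

namespace FA.TateThesis

universe u

variable {K : Type u} [Field K] [NumberField K]

local notation "𝐀" => AdeleRing (𝓞 K) K
local notation "𝐊" => algebraMap K (AdeleRing (𝓞 K) K)
local notation "𝐅" => algebraMap K (FiniteAdeleRing (𝓞 K) K)

variable (K) in
/-- The degree. -/
abbrev degree : ℕ := Fintype.card (Free.ChooseBasisIndex ℤ (𝓞 K))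

variable (K) in
theorem degree_eq : degree K = finrank ℚ K := (finrank_eq_card_basis (integralBasis K)).symm

variable (K) in
theorem degree_pos : 0 < degree K := by rw [degree_eq]; exact finrank_pos

/-- The scalar `exp (t / n)` at infinity. -/
def scale (t : ℝ) : InfiniteAdeleRing K := realScalar (Real.exp (t / degree K))

theorem scale_add (s t : ℝ) : scale (K := K) (s + t) = scale s * scale t := by
  rw [scale, scale, scale, ← realScalar_mul, ← Real.exp_add, add_div]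

theorem scale_zero : scale (K := K) 0 = 1 := by
  rw [scale, zero_div, Real.exp_zero, realScalar_one]

variable (K) in
/-- The scalar ideles at infinity, of absolute value `exp t`. -/
def lineIdele (t : ℝ) : Idele K where
  val := ((scale t, 1) : InfiniteAdeleRing K × FiniteAdeleRing (𝓞 K) K)
  inv := ((scale (-t), 1) : InfiniteAdeleRing K × FiniteAdeleRing (𝓞 K) K)
  val_inv := Prod.ext (show scale t * scale (-t) = (1 : InfiniteAdeleRing K) by
    rw [← scale_add, add_neg_cancel, scale_zero]) (mul_one (1 : FiniteAdeleRing (𝓞 K) K))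
  inv_val := Prod.ext (show scale (-t) * scale t = (1 : InfiniteAdeleRing K) by
    rw [← scale_add, neg_add_cancel, scale_zero]) (mul_one (1 : FiniteAdeleRing (𝓞 K) K))

theorem lineIdele_add (s t : ℝ) : lineIdele K (s + t) = lineIdele K s * lineIdele K t :=
  Units.ext (Prod.ext (scale_add s t) (mul_one (1 : FiniteAdeleRing (𝓞 K) K)).symm)

theorem continuous_lineIdele : Continuous (lineIdele K) := by
  have h : Continuous (scale (K := K)) :=
    continuous_realScalar.comp (Real.continuous_exp.comp (continuous_id.div_const _))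
  exact Units.continuous_iff.2 ⟨h.prodMk continuous_const,
    (h.comp continuous_neg).prodMk continuous_const⟩

theorem ideleAbs_lineIdele (t : ℝ) : ideleAbs K (lineIdele K t) = Real.exp t := by
  rw [ideleAbs_of_units fun v => by
    show Valued.v (1 : v.adicCompletion K) = 1
    exact map_one _]
  have h : ∀ w : InfinitePlace K, ‖((infComp w (lineIdele K t) : w.Completionˣ) : w.Completion)‖ =
      Real.exp (t / degree K) := fun w => by
    show ‖scale (K := K) t w‖ = _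
    rw [← (NumberField.InfinitePlace.Completion.isometry_extensionEmbedding w).norm_map_of_map_zero
      (map_zero _), scale, extensionEmbedding_realScalar, Complex.norm_real,
      Real.norm_of_nonneg (Real.exp_pos _).le]
  simp only [h]
  rw [Finset.prod_pow_eq_pow_sum, sum_mult_eq, ← degree_eq, ← Real.exp_nat_mul,
    mul_div_cancel₀ _ (Nat.cast_ne_zero.2 (degree_pos K).ne')]

theorem coordE_scale_mul (t : ℝ) (z : InfiniteAdeleRing K) :
    coordE K (scale t * z) = Real.exp (t / degree K) • coordE K z := by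
  ext i
  show coord (scale t * z) i = Real.exp (t / degree K) * coord z i
  rw [scale, coord_realScalar_mul, Pi.smul_apply, smul_eq_mul]

/-! ### Rapidly decreasing functions -/

/-- A compact set of finite adeles has a common denominator. -/
theorem exists_nat_denominator {C : Set (FiniteAdeleRing (𝓞 K) K)} (hC : IsCompact C) :
    ∃ e : ℕ, e ≠ 0 ∧ ∀ u ∈ C, 𝐅 (e : K) * u ∈ finInt K := by
  have hcov : ∀ u : FiniteAdeleRing (𝓞 K) K, ∃ e : ℕ, e ≠ 0 ∧ 𝐅 (e : K) * u ∈ finInt K := fun u => by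
    have hW : {y : FiniteAdeleRing (𝓞 K) K | y * u ∈ finInt K} ∈ 𝓝 0 :=
      ((isOpen_finInt K).preimage (continuous_id.mul continuous_const)).mem_nhds
        (show (0 : FiniteAdeleRing (𝓞 K) K) * u ∈ finInt K by rw [zero_mul]; exact zero_mem _)
    obtain ⟨N, hN, hNW⟩ := exists_nat_mul_subset hW
    refine ⟨N, hN, hNW (𝐅 (N : K)) ?_⟩
    rw [mem_natMulInt, ← map_mul, inv_mul_cancel₀ (Nat.cast_ne_zero.2 hN),
      ← show ((1 : 𝓞 K) : K) = 1 by simp]
    exact integer_mem_finInt 1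
  choose e he0 he using hcov
  obtain ⟨t, ht⟩ := hC.elim_finite_subcover
    (fun u => {y : FiniteAdeleRing (𝓞 K) K | 𝐅 (e u : K) * y ∈ finInt K})
    (fun u => (isOpen_finInt K).preimage (continuous_const.mul continuous_id))
    fun u _ => Set.mem_iUnion.2 ⟨u, he u⟩
  refine ⟨∏ u ∈ t, e u, Finset.prod_ne_zero_iff.2 fun u _ => he0 u, fun y hy => ?_⟩
  obtain ⟨u, hu, hyu⟩ := Set.mem_iUnion₂.1 (ht hy)
  obtain ⟨q, hq⟩ := Finset.dvd_prod_of_mem e hu
  rw [hq, Nat.cast_mul, mul_comm (e u : K), map_mul, mul_assoc,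
    show (q : K) = ((q : 𝓞 K) : K) by simp]
  exact mul_mem_finInt (integer_mem_finInt _) hyu

/-- Supported in a lattice at the finite places and rapidly decreasing at infinity. -/
def IsRapid (f : AdeleRing (𝓞 K) K → ℂ) : Prop :=
  (∃ d : ℕ, d ≠ 0 ∧ ∀ x, f x ≠ 0 → algebraMap K (FiniteAdeleRing (𝓞 K) K) (d : K) * x.2 ∈ finInt K) ∧
    ∀ N : ℕ, ∃ C : ℝ, 0 ≤ C ∧ ∀ x, ‖f x‖ * (1 + ‖coordE K x.1‖) ^ N ≤ C

/-- **Schwartz-Bruhat functions decrease rapidly.** -/
theorem isRapid_of_mem {f : 𝐀 → ℂ} (hf : f ∈ schwartzBruhat K) : IsRapid f := by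
  induction hf using Submodule.span_induction with
  | mem f hf =>
    obtain ⟨h, c, m, hm, rfl⟩ := hf
    obtain ⟨e, he, hec⟩ := exists_nat_denominator (isCompact_singleton (x := c))
    refine ⟨⟨e, he, fun x hx => ?_⟩, fun N => ?_⟩
    · have hmem : x ∈ finCoset c m := by
        by_contra hn
        exact hx (Set.indicator_of_notMem hn _)
      rw [show x.2 = (x.2 - c) + c by ring, mul_add]
      refine add_mem (mul_mem_finInt ?_ (sub_mem_of_mem_finCoset hm hmem)) (hec c rfl)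
      rw [show (e : K) = ((e : 𝓞 K) : K) by simp]
      exact integer_mem_finInt _
    · refine ⟨2 ^ N * ((Finset.Iic (N, 0)).sup fun p => SchwartzMap.seminorm ℂ p.1 p.2) h,
        by positivity, fun x => ?_⟩
      have h1 := SchwartzMap.one_add_le_sup_seminorm_apply (𝕜 := ℂ) (m := (N, 0)) le_rfl le_rfl h
        (coordE K x.1)
      rw [norm_iteratedFDeriv_zero, mul_comm] at h1
      refine le_trans (mul_le_mul_of_nonneg_right ?_ (by positivity)) h1
      by_cases hx : x ∈ finCoset c m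
      · rw [pureSB, Set.indicator_of_mem hx]
      · rw [pureSB, Set.indicator_of_notMem hx, norm_zero]
        exact norm_nonneg _
  | zero => exact ⟨⟨1, one_ne_zero, fun x hx => absurd rfl hx⟩, fun N => ⟨0, le_rfl, fun x => by simp⟩⟩
  | add f g _ _ hf hg =>
    obtain ⟨⟨d, hd, hdf⟩, hNf⟩ := hf
    obtain ⟨⟨d', hd', hdg⟩, hNg⟩ := hg
    refine ⟨⟨d * d', mul_ne_zero hd hd', fun x hx => ?_⟩, fun N => ?_⟩
    · rw [Nat.cast_mul, map_mul]
      by_cases hfx : f x = 0
      · rw [mul_assoc, show (d : K) = ((d : 𝓞 K) : K) by simp]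
        exact mul_mem_finInt (integer_mem_finInt _) (hdg x fun h => hx (by simp [hfx, h]))
      · rw [mul_comm (𝐅 (d : K)), mul_assoc, show (d' : K) = ((d' : 𝓞 K) : K) by simp]
        exact mul_mem_finInt (integer_mem_finInt _) (hdf x hfx)
    · obtain ⟨C, hC, hCf⟩ := hNf N
      obtain ⟨C', hC', hCg⟩ := hNg N
      refine ⟨C + C', add_nonneg hC hC', fun x => ?_⟩
      refine le_trans (mul_le_mul_of_nonneg_right (norm_add_le _ _) (by positivity)) ?_
      rw [add_mul]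
      exact add_le_add (hCf x) (hCg x)
  | smul s f _ hf =>
    obtain ⟨⟨d, hd, hdf⟩, hNf⟩ := hf
    refine ⟨⟨d, hd, fun x hx => hdf x fun h => hx (by simp [h])⟩, fun N => ?_⟩
    obtain ⟨C, hC, hCf⟩ := hNf N
    refine ⟨‖s‖ * C, mul_nonneg (norm_nonneg _) hC, fun x => ?_⟩
    rw [Pi.smul_apply, norm_smul, mul_assoc]
    exact mul_le_mul_of_nonneg_left (hCf x) (norm_nonneg s)

/-! ### Sums over the lattice -/

theorem sum_nat_inv_sq_le {a : ℝ} (ha : 0 < a) (n : ℕ) :
    ∑ k ∈ Finset.range n, ((1 + a * (k + 1 : ℕ)) ^ 2)⁻¹ ≤ a⁻¹ * (1 - (1 + a * n)⁻¹) := by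
  induction n with
  | zero => simp
  | succ n ih =>
    rw [Finset.sum_range_succ]
    refine le_trans (add_le_add ih le_rfl) ?_
    have hA : (0 : ℝ) < 1 + a * n := by positivity
    have hB : (0 : ℝ) < 1 + a * (n + 1 : ℕ) := by positivity
    have hle : (1 + a * n) ≤ 1 + a * (n + 1 : ℕ) := by push_cast; nlinarith
    have h : ((1 + a * (n + 1 : ℕ)) ^ 2)⁻¹ ≤ a⁻¹ * ((1 + a * n)⁻¹ - (1 + a * (n + 1 : ℕ))⁻¹) := by
      rw [inv_sub_inv hA.ne' hB.ne',
        show (1 + a * ((n + 1 : ℕ) : ℝ)) - (1 + a * n) = a by push_cast; ring, div_eq_mul_inv,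
        ← mul_assoc, inv_mul_cancel₀ ha.ne', one_mul, sq]
      exact inv_anti₀ (mul_pos hA hB) (mul_le_mul_of_nonneg_right hle hB.le)
    linarith

theorem summable_inv_sq {a : ℝ} (ha : 0 < a) :
    Summable (fun k : ℤ => ((1 + a * |(k : ℝ)|) ^ 2)⁻¹) ∧
      ∑' k : ℤ, ((1 + a * |(k : ℝ)|) ^ 2)⁻¹ ≤ 1 + 2 * a⁻¹ := by
  set F : ℤ → ℝ := fun k => ((1 + a * |(k : ℝ)|) ^ 2)⁻¹
  have hb : ∀ n, ∑ k ∈ Finset.range n, ((1 + a * (k + 1 : ℕ)) ^ 2)⁻¹ ≤ a⁻¹ := fun n =>
    (sum_nat_inv_sq_le ha n).trans (mul_le_of_le_one_right (by positivity)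
      (sub_le_self _ (by positivity)))
  have hs : Summable fun k : ℕ => ((1 + a * (k + 1 : ℕ)) ^ 2)⁻¹ :=
    summable_of_sum_range_le (fun k => by positivity) hb
  have hle : ∑' k : ℕ, ((1 + a * (k + 1 : ℕ)) ^ 2)⁻¹ ≤ a⁻¹ :=
    Real.tsum_le_of_sum_range_le (fun k => by positivity) hb
  have e1 : (fun k : ℕ => F (k + 1 : ℕ)) = fun k : ℕ => ((1 + a * (k + 1 : ℕ)) ^ 2)⁻¹ :=
    funext fun k => by
      show ((1 + a * |(((k + 1 : ℕ) : ℤ) : ℝ)|) ^ 2)⁻¹ = _
      rw [Int.cast_natCast, Nat.abs_cast]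
  have e2 : (fun k : ℕ => F (Int.negSucc k)) = fun k : ℕ => ((1 + a * (k + 1 : ℕ)) ^ 2)⁻¹ :=
    funext fun k => by
      show ((1 + a * |((Int.negSucc k : ℤ) : ℝ)|) ^ 2)⁻¹ = _
      rw [Int.cast_negSucc, abs_neg, Nat.abs_cast]
  have h1 : Summable fun k : ℕ => F k := (summable_nat_add_iff 1).1 (e1 ▸ hs)
  have h2 : Summable fun k : ℕ => F (Int.negSucc k) := e2 ▸ hs
  refine ⟨Summable.of_nat_of_neg_add_one h1 (h2.congr fun k => rfl), ?_⟩
  rw [tsum_of_nat_of_neg_add_one h1 (h2.congr fun k => rfl), h1.tsum_eq_zero_add]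
  have e0 : F ((0 : ℕ) : ℤ) = 1 := by simp [F]
  rw [e0, show ∑' n : ℕ, F (-(n + 1 : ℤ)) = ∑' n : ℕ, F (Int.negSucc n) from rfl, e1, e2]
  linarith

theorem tsum_pi_prod_le {ι κ : Type*} [Fintype ι] {g : κ → ℝ} (h0 : ∀ k, 0 ≤ g k) (hg : Summable g) :
    ∑' v : ι → κ, ∏ i, g (v i) ≤ (∑' k, g k) ^ Fintype.card ι := by
  classical
  refine Real.tsum_le_of_sum_le (fun v => Finset.prod_nonneg fun i _ => h0 _) fun u => ?_
  calc ∑ v ∈ u, ∏ i, g (v i)
      ≤ ∑ v ∈ Fintype.piFinset fun i => u.image fun v => v i, ∏ i, g (v i) :=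
        Finset.sum_le_sum_of_subset_of_nonneg (fun v hv =>
          Fintype.mem_piFinset.2 fun i => Finset.mem_image_of_mem _ hv)
          fun v _ _ => Finset.prod_nonneg fun i _ => h0 _
    _ = ∏ i, ∑ k ∈ u.image fun v => v i, g k := (Finset.prod_univ_sum _ fun _ => g).symm
    _ ≤ ∏ _i : ι, ∑' k, g k := Finset.prod_le_prod (fun i _ => Finset.sum_nonneg fun k _ => h0 k)
        fun i _ => hg.sum_le_tsum _ fun k _ => h0 k
    _ = (∑' k, g k) ^ Fintype.card ι := by rw [Finset.prod_const, Finset.card_univ]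

/-- The lattice sum. -/
def latticeTerm (a : ℝ) (n : Free.ChooseBasisIndex ℤ (𝓞 K) → ℤ) : ℝ :=
  ∏ i, ((1 + a * |(n i : ℝ)|) ^ 2)⁻¹

theorem summable_latticeTerm {a : ℝ} (ha : 0 < a) : Summable (latticeTerm (K := K) a) :=
  FA.HeckeFE.summable_pi_prod (f := fun k : ℤ => ((1 + a * |(k : ℝ)|) ^ 2)⁻¹)
    (fun k => by positivity) (summable_inv_sq ha).1

theorem tsum_latticeTerm_le {a : ℝ} (ha : 0 < a) :
    ∑' n, latticeTerm (K := K) a n ≤ (1 + 2 * a⁻¹) ^ degree K :=
  (tsum_pi_prod_le (ι := Free.ChooseBasisIndex ℤ (𝓞 K))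
    (g := fun k : ℤ => ((1 + a * |(k : ℝ)|) ^ 2)⁻¹) (fun k => by positivity)
    (summable_inv_sq ha).1).trans
    (pow_le_pow_left₀ (tsum_nonneg fun k => by positivity) (summable_inv_sq ha).2 _)

theorem inv_pow_le_latticeTerm {a : ℝ} (ha : 0 < a) (n : Free.ChooseBasisIndex ℤ (𝓞 K) → ℤ) :
    ((1 + a * ‖(WithLp.toLp 2 fun i => (n i : ℝ) : CoordSpace K)‖) ^ (2 * degree K))⁻¹ ≤
      latticeTerm a n := by
  rw [latticeTerm, Finset.prod_inv_distrib]
  refine inv_anti₀ (Finset.prod_pos fun i _ => by positivity) ?_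
  rw [pow_mul, degree, ← Finset.card_univ, ← Finset.prod_const]
  refine Finset.prod_le_prod (fun i _ => by positivity) fun i _ => ?_
  refine pow_le_pow_left₀ (by positivity)
    (add_le_add le_rfl (mul_le_mul_of_nonneg_left ?_ ha.le)) 2
  have := PiLp.norm_apply_le (WithLp.toLp 2 (fun i => (n i : ℝ)) : CoordSpace K) i
  simpa using this

/-! ### The estimates -/

/-- Multiplication by a compact set of ideles is bounded below at infinity. -/
theorem exists_mul_lower_bound {B : Set (Idele K)} (hB : IsCompact B) :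
    ∃ M : ℝ, 0 < M ∧ ∀ b ∈ B, ∀ z : InfiniteAdeleRing K,
      ‖coordE K z‖ ≤ M * ‖coordE K ((b : 𝐀).1 * z)‖ := by
  have hc : Continuous fun p : InfiniteAdeleRing K × CoordSpace K =>
      ‖coordE K (p.1 * fromCoord K (WithLp.ofLp p.2))‖ :=
    (continuous_coordE.comp (continuous_fst.mul
      (continuous_fromCoord.comp ((PiLp.continuous_ofLp 2 _).comp continuous_snd)))).norm
  have hY : IsCompact ((fun b : Idele K => (↑b⁻¹ : 𝐀).1) '' B) :=
    hB.image (continuous_fst.comp Units.continuous_coe_inv)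
  obtain ⟨R, hR⟩ := ((hY.prod (isCompact_closedBall (0 : CoordSpace K) 1)).image hc).bddAbove
  refine ⟨max R 1, by positivity, fun b hb z => ?_⟩
  set v := coordE K ((b : 𝐀).1 * z) with hv
  have h1 : (↑b⁻¹ : 𝐀).1 * (b : 𝐀).1 = 1 := congrArg Prod.fst b.inv_mul
  by_cases hv0 : v = 0
  · have h2 : coordE K ((↑b⁻¹ : 𝐀).1 * ((b : 𝐀).1 * z)) = 0 := by
      rw [coordE_mul, ← hv, hv0, map_zero]
    rw [← mul_assoc, h1, one_mul] at h2
    rw [h2, norm_zero]
    positivity
  have hvn : 0 < ‖v‖ := norm_pos_iff.2 hv0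
  have h3 : ‖coordE K ((↑b⁻¹ : 𝐀).1 * fromCoord K (WithLp.ofLp (‖v‖⁻¹ • v)))‖ ≤ max R 1 :=
    le_trans (hR ⟨(_, ‖v‖⁻¹ • v), ⟨⟨b, hb, rfl⟩, mem_closedBall_zero_iff.2 (by
      rw [norm_smul, norm_inv, norm_norm, inv_mul_cancel₀ hvn.ne'])⟩, rfl⟩) (le_max_left _ _)
  have h4 : coordE K (fromCoord K (WithLp.ofLp (‖v‖⁻¹ • v))) = ‖v‖⁻¹ • v := by
    ext i; rw [coordE_apply, coord_fromCoord]
  rw [coordE_mul, h4, map_smul, hv, ← coordE_mul, ← mul_assoc, h1, one_mul, ← hv, norm_smul,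
    norm_inv, norm_norm, inv_mul_le_iff₀ hvn] at h3
  rwa [mul_comm]

/-- The sum over the nonzero field elements. -/
def fieldSum (f : AdeleRing (𝓞 K) K → ℂ) (x : Idele K) : ℝ :=
  ∑' k : Kˣ, ‖f ((x : AdeleRing (𝓞 K) K) * algebraMap K (AdeleRing (𝓞 K) K) (k : K))‖

theorem lineIdele_snd (t : ℝ) : (lineIdele K t : 𝐀).2 = 1 := rfl

theorem lineIdele_fst (t : ℝ) : (lineIdele K t : 𝐀).1 = scale t := rfl

theorem adele_mul_fst (x y : 𝐀) : (x * y).1 = x.1 * y.1 := rfl

theorem adele_mul_snd (x y : 𝐀) : (x * y).2 = x.2 * y.2 := rfl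

theorem algebraMap_fst (k : K) : (𝐊 k).1 = algebraMap K (InfiniteAdeleRing K) k := rfl

theorem algebraMap_snd (k : K) : (𝐊 k).2 = 𝐅 k := rfl

theorem mul_line_snd (b : Idele K) (t : ℝ) (k : K) :
    (((b * lineIdele K t : Idele K) : 𝐀) * 𝐊 k).2 = (b : 𝐀).2 * 𝐅 k := by
  rw [Units.val_mul, adele_mul_snd, adele_mul_snd, lineIdele_snd, algebraMap_snd, mul_one]

theorem mul_line_fst (b : Idele K) (t : ℝ) (k : K) :
    (((b * lineIdele K t : Idele K) : 𝐀) * 𝐊 k).1 =
      scale t * ((b : 𝐀).1 * algebraMap K (InfiniteAdeleRing K) k) := by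
  rw [Units.val_mul, adele_mul_fst, adele_mul_fst, lineIdele_fst, algebraMap_fst,
    mul_comm (b : 𝐀).1, mul_assoc]

/-- A bound by a function of the coordinates of an integral multiple. -/
theorem fieldSum_le_of_bound {f : 𝐀 → ℂ} {x : Idele K} {D : ℕ} (hD : D ≠ 0)
    (hint : ∀ k : K, f ((x : 𝐀) * 𝐊 k) ≠ 0 → ∃ r : 𝓞 K, (r : K) = D * k)
    {g : (Free.ChooseBasisIndex ℤ (𝓞 K) → ℤ) → ℝ} (hg : Summable g) (hg0 : ∀ n, 0 ≤ g n)
    (hle : ∀ (k : Kˣ) (r : 𝓞 K), (r : K) = D * k →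
      ‖f ((x : 𝐀) * 𝐊 (k : K))‖ ≤ g ⇑((RingOfIntegers.basis K).repr r)) :
    Summable (fun k : Kˣ => ‖f ((x : 𝐀) * 𝐊 (k : K))‖) ∧ fieldSum f x ≤ ∑' n, g n := by
  have hDK : (D : K) ≠ 0 := Nat.cast_ne_zero.2 hD
  set G : K → ℝ := Function.extend (fun r : 𝓞 K => (r : K) / D)
    (fun r => g ⇑((RingOfIntegers.basis K).repr r)) 0
  have hinj : Function.Injective fun r : 𝓞 K => (r : K) / D := fun r r' h =>
    RingOfIntegers.ext ((div_left_inj' hDK).1 h)
  have hgφ : Summable fun r : 𝓞 K => g ⇑((RingOfIntegers.basis K).repr r) :=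
    ((RingOfIntegers.basis K).equivFun.toEquiv.summable_iff (f := g)).2 hg
  have hG : Summable G := by
    rw [← hinj.summable_iff (f := G) fun k hk => Function.extend_apply' _ _ _ fun h => hk h]
    simpa only [G, Function.comp_def, hinj.extend_apply] using hgφ
  have hGs : ∑' k, G k = ∑' n, g n := by
    rw [← hinj.tsum_eq (f := G) (fun k hk => by_contra fun h => hk (Function.extend_apply' _ _ _ h))]
    simp only [G, hinj.extend_apply]
    exact (RingOfIntegers.basis K).equivFun.toEquiv.tsum_eq g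
  have hG0 : ∀ k, 0 ≤ G k := fun k => by
    by_cases h : ∃ r : 𝓞 K, (r : K) / D = k
    · obtain ⟨r, rfl⟩ := h
      simp only [G, hinj.extend_apply]
      exact hg0 _
    · simp only [G, Function.extend_apply' _ _ _ h, Pi.zero_apply, le_refl]
  have hle' : ∀ k : Kˣ, ‖f ((x : 𝐀) * 𝐊 (k : K))‖ ≤ G (k : K) := fun k => by
    by_cases hk : f ((x : 𝐀) * 𝐊 (k : K)) = 0
    · rw [hk, norm_zero]; exact hG0 _
    obtain ⟨r, hr⟩ := hint _ hk
    refine (hle k r hr).trans_eq ?_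
    rw [show (k : K) = (r : K) / D by rw [hr, mul_div_cancel_left₀ _ hDK]]
    simp only [G, hinj.extend_apply]
  have hGu := hG.comp_injective (i := (Units.val : Kˣ → K)) Units.val_injective
  have hs : Summable fun k : Kˣ => ‖f ((x : 𝐀) * 𝐊 (k : K))‖ :=
    hGu.of_nonneg_of_le (fun k => norm_nonneg _) hle'
  exact ⟨hs, (hs.tsum_le_tsum hle' hGu).trans
    ((tsum_comp_le_tsum_of_inj hG hG0 Units.val_injective).trans hGs.le)⟩

theorem exists_integer_mul {f : 𝐀 → ℂ} {d e : ℕ} {b : Idele K}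
    (hdf : ∀ y, f y ≠ 0 → 𝐅 (d : K) * y.2 ∈ finInt K) (heb : 𝐅 (e : K) * (↑b⁻¹ : 𝐀).2 ∈ finInt K)
    (t : ℝ) (k : K) (hk : f (((b * lineIdele K t : Idele K) : 𝐀) * 𝐊 k) ≠ 0) :
    ∃ r : 𝓞 K, (r : K) = (e * d : ℕ) * k := by
  have h1 := hdf _ hk
  rw [mul_line_snd] at h1
  have h3 := mul_mem_finInt heb h1
  have hb2 : (↑b⁻¹ : 𝐀).2 * (b : 𝐀).2 = 1 := by rw [← adele_mul_snd, Units.inv_mul]; rfl
  rw [show 𝐅 (e : K) * (↑b⁻¹ : 𝐀).2 * (𝐅 (d : K) * ((b : 𝐀).2 * 𝐅 k)) =
    𝐅 (e : K) * 𝐅 (d : K) * ((↑b⁻¹ : 𝐀).2 * (b : 𝐀).2) * 𝐅 k by ring, hb2, mul_one, ← map_mul,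
    ← map_mul, ← Nat.cast_mul] at h3
  obtain ⟨r, hr⟩ := exists_integer_of_mem h3
  exact ⟨r, hr⟩

theorem coord_lower_bound {M : ℝ} (hM : 0 < M) {D : ℕ} (hD : D ≠ 0) {b : Idele K}
    (hMb : ∀ z, ‖coordE K z‖ ≤ M * ‖coordE K ((b : 𝐀).1 * z)‖) (t : ℝ) {k : K} {r : 𝓞 K}
    (hr : (r : K) = D * k) :
    Real.exp (t / degree K) * (M * D)⁻¹ *
        ‖(WithLp.toLp 2 fun i => (((RingOfIntegers.basis K).repr r i : ℤ) : ℝ) : CoordSpace K)‖ ≤
      ‖coordE K (((b * lineIdele K t : Idele K) : 𝐀) * 𝐊 k).1‖ := by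
  have hDR : (D : ℝ) ≠ 0 := Nat.cast_ne_zero.2 hD
  rw [mul_line_fst, coordE_scale_mul, norm_smul, Real.norm_of_nonneg (Real.exp_pos _).le,
    ← coordE_integer, hr, map_mul, map_natCast, ← nsmul_eq_mul, map_nsmul,
    ← Nat.cast_smul_eq_nsmul ℝ, norm_smul, Real.norm_natCast, mul_assoc]
  refine mul_le_mul_of_nonneg_left ?_ (Real.exp_pos _).le
  rw [show (M * D)⁻¹ * ((D : ℝ) * ‖coordE K (algebraMap K (InfiniteAdeleRing K) k)‖) =
    M⁻¹ * ‖coordE K (algebraMap K (InfiniteAdeleRing K) k)‖ by field_simp]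
  exact (inv_mul_le_iff₀ hM).2 (hMb _)

/-- A decay of order `p` gives a bound at the multiples. -/
theorem norm_le_of_decay {f : 𝐀 → ℂ} {C : ℝ} {p : ℕ} {y : 𝐀} {R : ℝ} (hR : 0 ≤ R)
    (hC : ‖f y‖ * (1 + ‖coordE K y.1‖) ^ p ≤ C) (hy : R ≤ ‖coordE K y.1‖) :
    ‖f y‖ ≤ C * ((1 + R) ^ p)⁻¹ := by
  rw [← div_eq_mul_inv, le_div_iff₀ (by positivity)]
  exact le_trans (mul_le_mul_of_nonneg_left
    (pow_le_pow_left₀ (by positivity) (add_le_add le_rfl hy) p) (norm_nonneg _)) hC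

theorem integer_coord_norm {r : 𝓞 K} (hr : r ≠ 0) :
    (1 : ℝ) ≤ ‖(WithLp.toLp 2 fun i => (((RingOfIntegers.basis K).repr r i : ℤ) : ℝ) :
      CoordSpace K)‖ := by
  have h0 : ∃ i, (RingOfIntegers.basis K).repr r i ≠ 0 := by
    by_contra h
    push Not at h
    exact hr ((RingOfIntegers.basis K).repr.injective (Finsupp.ext fun i => (h i).trans (by simp)))
  obtain ⟨i, hi⟩ := h0
  refine le_trans ?_ (PiLp.norm_apply_le _ i)
  rw [Real.norm_eq_abs]
  show (1 : ℝ) ≤ |(((RingOfIntegers.basis K).repr r i : ℤ) : ℝ)|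
  exact_mod_cast Int.one_le_abs hi

/-- **The estimates along the line.** -/
theorem exists_fieldSum_bound {f : 𝐀 → ℂ} (hf : IsRapid f) {B : Set (Idele K)} (hB : IsCompact B)
    (N : ℕ) :
    ∃ C : ℝ, 0 ≤ C ∧ ∀ b ∈ B, ∀ t : ℝ,
      Summable (fun k : Kˣ => ‖f (((b * lineIdele K t : Idele K) : 𝐀) * 𝐊 (k : K))‖) ∧
        (0 ≤ t → fieldSum f (b * lineIdele K t) ≤ C * Real.exp (-(N : ℝ) * t)) ∧
        (t ≤ 0 → fieldSum f (b * lineIdele K t) ≤ C * Real.exp (-t)) := by
  obtain ⟨⟨d, hd, hdf⟩, hN⟩ := hf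
  obtain ⟨M, hM, hMB⟩ := exists_mul_lower_bound hB
  obtain ⟨e, he, heB⟩ := exists_nat_denominator
    (hB.image (f := fun b : Idele K => (↑b⁻¹ : 𝐀).2) (continuous_snd.comp Units.continuous_coe_inv))
  obtain ⟨C₁, hC₁, hC₁f⟩ := hN (2 * degree K)
  obtain ⟨C₂, hC₂, hC₂f⟩ := hN (N * degree K + 2 * degree K)
  have hD : e * d ≠ 0 := mul_ne_zero he hd
  set δ : ℝ := (M * (e * d : ℕ))⁻¹ with hδdef
  have hδ : 0 < δ := inv_pos.2 (mul_pos hM (Nat.cast_pos.2 (Nat.pos_of_ne_zero hD)))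
  have hTδ : 0 ≤ ∑' n, latticeTerm (K := K) δ n :=
    tsum_nonneg fun n => Finset.prod_nonneg fun i _ => by positivity
  refine ⟨C₂ * (δ ^ (N * degree K))⁻¹ * ∑' n, latticeTerm (K := K) δ n +
    C₁ * (1 + 2 * δ⁻¹) ^ degree K, by positivity, fun b hb t => ?_⟩
  have hint := exists_integer_mul hdf (heB _ ⟨b, hb, rfl⟩) t
  have hlow : ∀ (k : K) (r : 𝓞 K), (r : K) = (e * d : ℕ) * k →
      Real.exp (t / degree K) * δ *
          ‖(WithLp.toLp 2 fun i => (((RingOfIntegers.basis K).repr r i : ℤ) : ℝ) : CoordSpace K)‖ ≤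
        ‖coordE K (((b * lineIdele K t : Idele K) : 𝐀) * 𝐊 k).1‖ := fun k r hr =>
    coord_lower_bound hM hD (hMB b hb) t hr
  set lam := Real.exp (t / degree K) with hlam
  have hlam0 : 0 < lam := Real.exp_pos _
  obtain ⟨hs, hle⟩ := fieldSum_le_of_bound (f := f) (x := b * lineIdele K t) hD hint
    (g := fun n => C₁ * latticeTerm (lam * δ) n)
    ((summable_latticeTerm (mul_pos hlam0 hδ)).mul_left _)
    (fun n => mul_nonneg hC₁ (Finset.prod_nonneg fun i _ => by positivity))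
    (fun k r hr => (norm_le_of_decay (by positivity) (hC₁f _) (hlow _ r hr)).trans
      (mul_le_mul_of_nonneg_left (inv_pow_le_latticeTerm (mul_pos hlam0 hδ) _) hC₁))
  refine ⟨hs, fun ht => ?_, fun ht => ?_⟩
  · have hl1 : 1 ≤ lam := Real.one_le_exp (by positivity)
    have hgn : ∀ (k : Kˣ) (r : 𝓞 K), (r : K) = (e * d : ℕ) * (k : K) →
        ‖f (((b * lineIdele K t : Idele K) : 𝐀) * 𝐊 (k : K))‖ ≤
          C₂ * ((lam * δ) ^ (N * degree K))⁻¹ * latticeTerm δ ⇑((RingOfIntegers.basis K).repr r) :=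
      fun k r hr => by
      refine (norm_le_of_decay (by positivity) (hC₂f _) (hlow _ r hr)).trans ?_
      have hr0 : r ≠ 0 := fun h0 => by
        rw [h0] at hr
        exact (mul_eq_zero.1 (hr.symm.trans (by simp))).elim
          (Nat.cast_ne_zero.2 hD) k.ne_zero
      have hz := integer_coord_norm hr0
      set z : CoordSpace K :=
        WithLp.toLp 2 fun i => (((RingOfIntegers.basis K).repr r i : ℤ) : ℝ)
      rw [pow_add, mul_inv, ← mul_assoc]
      refine mul_le_mul (mul_le_mul_of_nonneg_left (inv_anti₀ (by positivity)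
        (pow_le_pow_left₀ (by positivity) ?_ _)) hC₂) ?_ (by positivity) (by positivity)
      · have : lam * δ * 1 ≤ lam * δ * ‖z‖ := mul_le_mul_of_nonneg_left hz (by positivity)
        linarith
      · refine le_trans (inv_anti₀ (by positivity) (pow_le_pow_left₀ (by positivity)
          (add_le_add le_rfl ?_) _)) (inv_pow_le_latticeTerm hδ _)
        exact mul_le_mul_of_nonneg_right (le_mul_of_one_le_left hδ.le hl1) (norm_nonneg _)
    obtain ⟨-, hle'⟩ := fieldSum_le_of_bound (f := f) (x := b * lineIdele K t) hD hint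
      (g := fun n => C₂ * ((lam * δ) ^ (N * degree K))⁻¹ * latticeTerm δ n)
      ((summable_latticeTerm hδ).mul_left _)
      (fun n => mul_nonneg (by positivity) (Finset.prod_nonneg fun i _ => by positivity)) hgn
    refine hle'.trans ?_
    have e1 : ((lam * δ) ^ (N * degree K))⁻¹ =
        (δ ^ (N * degree K))⁻¹ * Real.exp (-(N : ℝ) * t) := by
      rw [mul_pow, mul_inv_rev, hlam, ← Real.exp_nat_mul, ← Real.exp_neg, Nat.cast_mul]
      congr 2
      have hdp : (degree K : ℝ) ≠ 0 := Nat.cast_ne_zero.2 (degree_pos K).ne'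
      field_simp
    rw [tsum_mul_left, e1, add_mul]
    refine le_add_of_le_of_nonneg (le_of_eq ?_) (by positivity)
    ring
  · have hl1 : lam ≤ 1 := Real.exp_le_one_iff.2 (div_nonpos_of_nonpos_of_nonneg ht (Nat.cast_nonneg _))
    refine hle.trans ?_
    rw [tsum_mul_left]
    refine le_trans (mul_le_mul_of_nonneg_left (tsum_latticeTerm_le (mul_pos hlam0 hδ)) hC₁) ?_
    have e1 : (lam⁻¹) ^ degree K = Real.exp (-t) := by
      rw [hlam, ← Real.exp_neg, ← Real.exp_nat_mul]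
      congr 1
      have hdp : (degree K : ℝ) ≠ 0 := Nat.cast_ne_zero.2 (degree_pos K).ne'
      field_simp
    have h1 : (1 + 2 * (lam * δ)⁻¹) ^ degree K ≤ (1 + 2 * δ⁻¹) ^ degree K * Real.exp (-t) := by
      rw [← e1, ← mul_pow]
      refine pow_le_pow_left₀ (by positivity) ?_ _
      rw [mul_inv, add_mul, one_mul, mul_comm lam⁻¹, ← mul_assoc]
      exact add_le_add ((one_le_inv₀ hlam0).2 hl1) le_rfl
    refine le_trans (mul_le_mul_of_nonneg_left h1 hC₁) ?_
    rw [← mul_assoc, add_mul]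
    exact le_add_of_nonneg_left (by positivity)

/-- The sums of the translates tend to their term at zero. -/
theorem tendsto_fieldSum_line {f : 𝐀 → ℂ} (hf : IsRapid f) :
    Tendsto (fun t : ℝ => fieldSum f (lineIdele K t)) atTop (𝓝 0) := by
  obtain ⟨C, hC, hCb⟩ := exists_fieldSum_bound hf (isCompact_singleton (x := (1 : Idele K))) 1
  refine squeeze_zero' (Eventually.of_forall fun t => tsum_nonneg fun k => norm_nonneg _) ?_
    ((Real.tendsto_exp_atBot.comp tendsto_neg_atTop_atBot).const_mul C |>.trans (by simp))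
  filter_upwards [eventually_ge_atTop 0] with t ht
  have h := (hCb 1 rfl t).2.1 ht
  simpa using h

end FA.TateThesis

end
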