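import Fermat.Agent.TateThesis.Inversion
import Fermat.Agent.IdeleClass.Discrete
import Mathlib.MeasureTheory.Group.FundamentalDomain
import Mathlib.MeasureTheory.Measure.Haar.Unique

/-!
# A fundamental domain of the principal ideles

It lies in a compact set times the scalar ideles at infinity, and the logarithm of the absolute
value carries the Haar measure on it to a multiple of the Lebesgue measure.
-/

set_option autoImplicit false
set_option linter.unusedSectionVars false
set_option linter.style.haveILetI false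

noncomputable section

open NumberField IsDedekindDomain MeasureTheory MeasureTheory.Measure
open Filter Topology Module
open FA.AdeleDual FA.Ideles FA.IdeleClass
open scoped Classical Pointwise NNReal ENNReal

set_option maxHeartbeats 400000

namespace FA.TateThesis

universe u

variable {K : Type u} [Field K] [NumberField K]

local notation "𝐆" => Idele K
local notation "Γ" => MonoidHom.range (principal (K := K))

attribute [local instance] secondCountable_idele locallyCompact_idele countable_field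

theorem principal_injective : Function.Injective (principal (K := K)) :=
  Units.map_injective (AdeleRing.algebraMap_injective (𝓞 K) K)

instance countable_principalIdeles : Countable (MonoidHom.range (principal (K := K))) := by
  haveI : Countable Kˣ := Units.val_injective.countable
  exact Function.Surjective.countable (MonoidHom.rangeRestrict_surjective (principal (K := K)))

/-- The logarithm of the absolute value. -/
def logAbs (x : Idele K) : ℝ := Real.log (ideleAbs K x)

theorem continuous_logAbs : Continuous (logAbs (K := K)) :=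
  continuous_ideleAbs.log fun x => (ideleAbs_pos x).ne'

theorem logAbs_mul (x y : 𝐆) : logAbs (x * y) = logAbs x + logAbs y := by
  rw [logAbs, map_mul, Real.log_mul (ideleAbs_pos x).ne' (ideleAbs_pos y).ne']
  rfl

theorem logAbs_of_one {x : 𝐆} (hx : x ∈ oneIdeles K) : logAbs x = 0 := by
  rw [logAbs, MonoidHom.mem_ker.1 hx, Real.log_one]

theorem logAbs_principal (k : Kˣ) : logAbs (principal k : 𝐆) = 0 := by
  rw [logAbs, ideleAbs_principal, Real.log_one]

theorem logAbs_line (t : ℝ) : logAbs (lineIdele K t) = t := by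
  rw [logAbs, ideleAbs_lineIdele, Real.log_exp]

theorem exp_logAbs (x : 𝐆) : Real.exp (logAbs x) = ideleAbs K x := Real.exp_log (ideleAbs_pos x)

theorem logAbs_smul (g : Γ) (x : 𝐆) : logAbs (g • x) = logAbs x := by
  obtain ⟨k, hk⟩ := g.2
  show logAbs ((g : 𝐆) * x) = logAbs x
  rw [logAbs_mul, ← hk, logAbs_principal, zero_add]

variable (K) in
/-- Compact representatives of the ideles of absolute value one. -/
def repsSet : Set (Idele K) := (exists_compact_reps K).choose

variable (K) in
theorem isCompact_repsSet : IsCompact (repsSet K) := (exists_compact_reps K).choose_spec.1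

variable (K) in
theorem repsSet_subset : repsSet K ⊆ oneIdeles K := (exists_compact_reps K).choose_spec.2.1

variable (K) in
/-- Representatives times the line. -/
def lineSet : Set (Idele K) := repsSet K * Set.range (lineIdele K)

theorem exists_rep (x : 𝐆) : ∃ g : Γ, g • x ∈ lineSet K := by
  have h1 : x * lineIdele K (-logAbs x) ∈ oneIdeles K := MonoidHom.mem_ker.2 (by
    rw [map_mul, ideleAbs_lineIdele, Real.exp_neg, exp_logAbs,
      mul_inv_cancel₀ (ideleAbs_pos x).ne'])
  obtain ⟨a, b, hb, hab⟩ := (exists_compact_reps K).choose_spec.2.2 _ h1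
  refine ⟨⟨principal a⁻¹, a⁻¹, rfl⟩, b, hb, lineIdele K (logAbs x), ⟨_, rfl⟩, ?_⟩
  show b * lineIdele K (logAbs x) = principal a⁻¹ * x
  have hl : lineIdele K (-logAbs x) * lineIdele K (logAbs x) = 1 := by
    rw [← lineIdele_add, neg_add_cancel]
    refine Units.ext (Prod.ext ?_ rfl)
    exact scale_zero
  calc b * lineIdele K (logAbs x)
      = principal a⁻¹ * (principal a * b) * lineIdele K (logAbs x) := by
        rw [← mul_assoc (principal a⁻¹), ← map_mul, inv_mul_cancel, map_one, one_mul]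
    _ = principal a⁻¹ * x := by rw [← hab, mul_assoc, mul_assoc x, hl, mul_one]

theorem isClosed_lineSet : IsClosed (lineSet K) := by
  have h : IsClosed (Set.range (lineIdele K)) := by
    have e : Set.range (lineIdele K) = {x | lineIdele K (logAbs x) = x} := Set.ext fun x =>
      ⟨fun ⟨t, ht⟩ => by rw [← ht]; exact congrArg (lineIdele K) (logAbs_line t), fun hx => ⟨_, hx⟩⟩
    rw [e]
    exact isClosed_eq (continuous_lineIdele.comp continuous_logAbs) continuous_id
  exact h.mul_left_of_isCompact (isCompact_repsSet K)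

theorem exists_of_mem_lineSet {x : 𝐆} (hx : x ∈ lineSet K) :
    ∃ b ∈ repsSet K, x = b * lineIdele K (logAbs x) := by
  obtain ⟨b, hb, _, ⟨t, rfl⟩, rfl⟩ := hx
  refine ⟨b, hb, ?_⟩
  show b * lineIdele K t = b * lineIdele K (logAbs (b * lineIdele K t))
  rw [logAbs_mul, logAbs_of_one (repsSet_subset K hb), zero_add, logAbs_line]

variable [MeasurableSpace (Idele K)] [BorelSpace (Idele K)]

variable (K) in
/-- **A fundamental domain inside the representatives times the line.** -/
theorem exists_domain : ∃ D : Set (Idele K), MeasurableSet D ∧ D ⊆ lineSet K ∧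
    ∀ ν : Measure (Idele K), IsFundamentalDomain (MonoidHom.range (principal (K := K))) D ν := by
  haveI := discreteTopology_principal K
  obtain ⟨U, hU, hU1⟩ := discreteTopology_iff_isOpen_singleton_one.1 (discreteTopology_principal K)
  have hU1' : ∀ g : Γ, (g : 𝐆) ∈ U ↔ g = 1 := fun g => by
    rw [← Set.mem_singleton_iff, ← hU1]; rfl
  obtain ⟨V, hV, hV1, hVU⟩ : ∃ V : Set 𝐆, IsOpen V ∧ (1 : 𝐆) ∈ V ∧
      ∀ a ∈ V, ∀ b ∈ V, a⁻¹ * b ∈ U := by
    have hW : IsOpen ((fun p : 𝐆 × 𝐆 => p.1⁻¹ * p.2) ⁻¹' U) :=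
      hU.preimage (continuous_fst.inv.mul continuous_snd)
    obtain ⟨V₁, V₂, h1, h2, h11, h21, hsub⟩ := isOpen_prod_iff.1 hW 1 1
      (show (1 : 𝐆)⁻¹ * 1 ∈ U by rw [inv_one, one_mul]; exact (hU1' 1).2 rfl)
    exact ⟨V₁ ∩ V₂, h1.inter h2, ⟨h11, h21⟩, fun a ha b hb =>
      hsub (show (a, b) ∈ V₁ ×ˢ V₂ from ⟨ha.1, hb.2⟩)⟩
  obtain ⟨T, hT, hcov⟩ := TopologicalSpace.isOpen_iUnion_countable
    (fun g : 𝐆 => g • V) fun g => hV.smul g
  have hT' : ∀ x : 𝐆, ∃ g ∈ T, x ∈ g • V := fun x => by
    have hx : x ∈ ⋃ g : 𝐆, g • V := Set.mem_iUnion.2 ⟨x, 1, hV1, mul_one x⟩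
    rw [← hcov] at hx
    obtain ⟨g, hg, hxg⟩ := Set.mem_iUnion₂.1 hx
    exact ⟨g, hg, hxg⟩
  obtain ⟨e, he⟩ := hT.exists_eq_range (by obtain ⟨g, hg, -⟩ := hT' 1; exact ⟨g, hg⟩)
  set A : ℕ → Set 𝐆 := fun n => lineSet K ∩ e n • V
  have hA : ∀ n, MeasurableSet (A n) := fun n =>
    isClosed_lineSet.measurableSet.inter (hV.smul _).measurableSet
  set D : Set 𝐆 := ⋃ n, A n \ ⋃ (m < n) (g : Γ), (fun x => g • x) ⁻¹' A m with hD
  have hDm : MeasurableSet D := MeasurableSet.iUnion fun n => (hA n).diff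
    (MeasurableSet.iUnion fun m => MeasurableSet.iUnion fun _ => MeasurableSet.iUnion fun g =>
      (hA m).preimage (continuous_const_mul (g : 𝐆)).measurable)
  have hmem : ∀ x, x ∈ D ↔ ∃ n, x ∈ A n ∧ ∀ m < n, ∀ g : Γ, g • x ∉ A m := fun x => by
    simp only [hD, Set.mem_iUnion, Set.mem_sdiff, Set.mem_preimage, not_exists]
  refine ⟨D, hDm, fun x hx => ?_, fun ν => IsFundamentalDomain.mk' hDm.nullMeasurableSet fun x => ?_⟩
  · obtain ⟨n, hn, -⟩ := (hmem x).1 hx
    exact hn.1
  have hex : ∃ n, ∃ g : Γ, g • x ∈ A n := by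
    obtain ⟨g, hg⟩ := exists_rep x
    obtain ⟨c, hc, hxc⟩ := hT' (g • x)
    rw [he] at hc
    obtain ⟨n, rfl⟩ := hc
    exact ⟨n, g, hg, hxc⟩
  obtain ⟨g₀, hg₀⟩ := Nat.find_spec hex
  refine ⟨g₀, (hmem _).2 ⟨_, hg₀, fun m hm g hg => Nat.find_min hex hm ⟨g * g₀, by rwa [mul_smul]⟩⟩,
    fun g hg => ?_⟩
  obtain ⟨n, hn, hmin⟩ := (hmem _).1 hg
  have hn0 : n = Nat.find hex := le_antisymm (not_lt.1 fun hlt => hmin _ hlt (g₀ * g⁻¹) (by
    rwa [mul_smul, inv_smul_smul])) (Nat.find_min' hex ⟨g, hn⟩)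
  subst hn0
  obtain ⟨a, ha, hae⟩ := hn.2
  obtain ⟨b, hb, hbe⟩ := hg₀.2
  change e (Nat.find hex) * a = (g : 𝐆) * x at hae
  change e (Nat.find hex) * b = (g₀ : 𝐆) * x at hbe
  have h1 : ((g₀⁻¹ * g : Γ) : 𝐆) = b⁻¹ * a := by
    calc ((g₀⁻¹ * g : Γ) : 𝐆) = ((g₀ : 𝐆) * x)⁻¹ * ((g : 𝐆) * x) := by
          rw [Subgroup.coe_mul, Subgroup.coe_inv, mul_inv_rev, mul_comm x⁻¹, mul_assoc,
            mul_comm (g : 𝐆) x, inv_mul_cancel_left]
      _ = b⁻¹ * a := by rw [← hae, ← hbe, mul_inv_rev, mul_assoc, inv_mul_cancel_left]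
  have h2 := (hU1' _).1 (h1 ▸ hVU b hb a ha)
  exact (inv_mul_eq_one.1 h2).symm

variable {ν : Measure (Idele K)} [IsHaarMeasure ν] {D : Set (Idele K)}

/-- **Translations do not change integrals over a domain.** -/
theorem setIntegral_translate (hD : IsFundamentalDomain Γ D ν) {g : 𝐆 → ℂ}
    (hg : ∀ (γ : Γ) (x : 𝐆), g (γ • x) = g x) (a : 𝐆) :
    ∫ x in D, g (a * x) ∂ν = ∫ x in D, g x ∂ν := by
  rw [hD.setIntegral_eq (hD.smul_of_comm a⁻¹) (f := fun x => g (a * x))
    (fun γ x => by
      show g (a * ((γ : 𝐆) * x)) = g (a * x)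
      rw [mul_left_comm]; exact hg γ (a * x)),
    hD.setIntegral_eq (hD.smul_of_comm (1 : 𝐆)) hg]
  rw [one_smul, show (a⁻¹ • D) = (fun x => a⁻¹ • x) '' D from rfl,
    (measurePreserving_smul a⁻¹ ν).setIntegral_image_emb (measurableEmbedding_const_smul _)]
  exact setIntegral_congr_fun₀ hD.nullMeasurableSet fun x _ => by
    show g (a * (a⁻¹ * x)) = g x
    rw [mul_inv_cancel_left]

variable (D) in
/-- **The logarithm of the absolute value carries the measure to a multiple of Lebesgue's.** -/
theorem exists_map_logAbs (hDW : D ⊆ lineSet K)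
    (hD : IsFundamentalDomain Γ D ν) :
    ∃ V : ℝ≥0, 0 < V ∧ Measure.map logAbs (ν.restrict D) = V • (volume : Measure ℝ) := by
  set m : Measure ℝ := Measure.map logAbs (ν.restrict D) with hm
  have hmap : ∀ S, MeasurableSet S → m S = ν (logAbs ⁻¹' S ∩ D) := fun S hS => by
    rw [hm, Measure.map_apply continuous_logAbs.measurable hS,
      Measure.restrict_apply (continuous_logAbs.measurable hS)]
  haveI : IsAddLeftInvariant m := ⟨fun c => by
    refine Measure.ext fun S hS => ?_
    have hS' : MeasurableSet ((c + ·) ⁻¹' S) := (continuous_const_add c).measurable hS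
    rw [Measure.map_apply (continuous_const_add c).measurable hS, hmap _ hS', hmap _ hS]
    set L := lineIdele K c
    have hinv : ∀ γ : Γ, (fun x => γ • x) ⁻¹' (logAbs ⁻¹' S) = (logAbs ⁻¹' S : Set 𝐆) := fun γ => by
      ext x
      simp only [Set.mem_preimage, logAbs_smul]
    conv_rhs => rw [hD.measure_set_eq (hD.smul_of_comm L) (continuous_logAbs.measurable hS) hinv]
    rw [← measure_preimage_mul ν L (logAbs ⁻¹' S ∩ L • D)]
    congr 1
    ext x
    simp only [Set.mem_inter_iff, Set.mem_preimage, logAbs_mul, L, logAbs_line]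
    exact and_congr_right fun _ => Iff.symm (Set.smul_mem_smul_set_iff (a := lineIdele K c))⟩
  haveI : IsFiniteMeasureOnCompacts m := ⟨fun S hS => by
    rw [hmap S hS.measurableSet]
    refine (measure_mono fun x hx => ?_).trans_lt
      ((isCompact_repsSet K).mul (hS.image continuous_lineIdele)).measure_lt_top
    obtain ⟨b, hb, hbx⟩ := exists_of_mem_lineSet (hDW hx.2)
    rw [hbx]
    exact Set.mul_mem_mul hb ⟨_, hx.1, rfl⟩⟩
  set V := addHaarScalarFactor m volume
  have hmV : m = V • (volume : Measure ℝ) := isAddLeftInvariant_eq_smul m volume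
  refine ⟨V, pos_iff_ne_zero.2 fun hV0 => ?_, hmV⟩
  have h0 : ν D = 0 := by
    have h := hmap Set.univ MeasurableSet.univ
    rwa [Set.preimage_univ, Set.univ_inter, hmV, hV0, zero_smul, Measure.coe_zero, Pi.zero_apply,
      eq_comm] at h
  have h1 := hD.measure_zero_of_invariant Set.univ (fun g => Set.smul_set_univ)
    (by rwa [Set.univ_inter])
  exact (isOpen_univ.measure_pos ν Set.univ_nonempty).ne' h1

end FA.TateThesis

end
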