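import Fermat.Agent.TateThesis.Topology
import Mathlib.RingTheory.Trace.Basic
import Mathlib.RingTheory.Discriminant
import Mathlib.LinearAlgebra.Determinant

/-!
# Multiplication in coordinates

Multiplication by an infinite adele is linear in the coordinates, of determinant the product of the
normalised absolute values up to sign, and the trace pairing is given by an invertible matrix.
-/

set_option autoImplicit false
set_option linter.unusedSectionVars false
set_option linter.style.haveILetI false

noncomputable section

open NumberField NumberField.InfinitePlace NumberField.InfinitePlace.Completion IsDedekindDomain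
open Filter Topology Module Matrix
open FA.AdeleDual
open scoped Classical RealInnerProductSpace

set_option maxHeartbeats 400000

namespace FA.TateThesis

universe u

variable {K : Type u} [Field K] [NumberField K]

local notation "𝐈" => algebraMap K (InfiniteAdeleRing K)

theorem realScalar_mul (s t : ℝ) : realScalar (K := K) (s * t) = realScalar s * realScalar t :=
  infAdele_ext fun w => by
    show embAt w (realScalar (K := K) (s * t)) = embAt w (realScalar (K := K) s * realScalar t)
    rw [map_mul, embAt_realScalar, embAt_realScalar, embAt_realScalar, Complex.ofReal_mul]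

theorem coord_realScalar_mul (t : ℝ) (z : InfiniteAdeleRing K) :
    coord (realScalar t * z) = t • coord z := by
  conv_lhs => rw [← fromCoord_coord z]
  rw [show realScalar t * fromCoord K (coord z) = fromCoord K (t • coord z) by
    simp only [fromCoord, Finset.mul_sum, Pi.smul_apply, smul_eq_mul, realScalar_mul, mul_assoc],
    coord_fromCoord]

theorem coord_sum {ι : Type*} (s : Finset ι) (f : ι → InfiniteAdeleRing K) :
    coord (∑ i ∈ s, f i) = ∑ i ∈ s, coord (f i) :=
  _root_.map_sum (AddMonoidHom.mk' (coord (K := K)) coord_add) f s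

/-- The matrix of multiplication. -/
def mulMat (y : InfiniteAdeleRing K) :
    Matrix (Free.ChooseBasisIndex ℤ (𝓞 K)) (Free.ChooseBasisIndex ℤ (𝓞 K)) ℝ :=
  Matrix.of fun i j => coord (y * algebraMap K (InfiniteAdeleRing K) (integralBasis K j)) i

theorem coord_mul (y z : InfiniteAdeleRing K) : coord (y * z) = mulMat y *ᵥ coord z := by
  conv_lhs => rw [← fromCoord_coord z]
  rw [fromCoord, Finset.mul_sum, coord_sum]
  ext i
  rw [Finset.sum_apply]
  refine Finset.sum_congr rfl fun j _ => ?_
  rw [mul_left_comm, coord_realScalar_mul]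
  exact mul_comm _ _

theorem mulMat_algebraMap (k : K) :
    mulMat (𝐈 k) = (Algebra.leftMulMatrix (integralBasis K) k).map (algebraMap ℚ ℝ) := by
  ext i j
  show coord (𝐈 k * 𝐈 (integralBasis K j)) i = _
  rw [← map_mul, coord_algebraMap, Matrix.map_apply, Algebra.leftMulMatrix_eq_repr_mul,
    eq_ratCast]

theorem continuous_det_mulMat : Continuous fun y : InfiniteAdeleRing K => (mulMat y).det :=
  Continuous.matrix_det (continuous_pi fun i => continuous_pi fun _ =>
    (continuous_apply i).comp (continuous_coord.comp (continuous_id.mul continuous_const)))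

variable (K) in
/-- **The field is dense at infinity.** -/
theorem denseRange_infinite : DenseRange (algebraMap K (InfiniteAdeleRing K)) := by
  have h1 : DenseRange fun q : Free.ChooseBasisIndex ℤ (𝓞 K) → ℚ => fromCoord K fun i => (q i : ℝ) :=
    DenseRange.comp (f := Pi.map fun _ (q : ℚ) => (q : ℝ)) (g := fromCoord K)
      (Function.Surjective.denseRange fun y => ⟨coord y, fromCoord_coord y⟩)
      (DenseRange.piMap fun _ => Rat.denseRange_cast) continuous_fromCoord
  refine h1.mono ?_
  rintro _ ⟨q, rfl⟩
  refine ⟨∑ i, q i • integralBasis K i, ?_⟩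
  refine (fromCoord_coord _).symm.trans (congrArg (fromCoord K) (funext fun i => ?_))
  rw [coord_algebraMap, Basis.repr_sum_self]

/-- **The determinant of multiplication.** -/
theorem abs_det_mulMat (y : InfiniteAdeleRing K) :
    |(mulMat y).det| = ∏ w : InfinitePlace K, ‖y w‖ ^ w.mult := by
  refine congrFun ((denseRange_infinite K).equalizer continuous_det_mulMat.abs
    (continuous_finsetProd _ fun w _ => (continuous_apply w).norm.pow _) (funext fun k => ?_)) y
  show |(mulMat (𝐈 k)).det| = ∏ w : InfinitePlace K, ‖algebraMap K w.Completion k‖ ^ w.mult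
  have h2 : (mulMat (𝐈 k)).det = ((Algebra.norm ℚ k : ℚ) : ℝ) := by
    rw [mulMat_algebraMap, Algebra.norm_eq_matrix_det (integralBasis K), ← eq_ratCast (algebraMap ℚ ℝ)]
    exact (RingHom.map_det (algebraMap ℚ ℝ) _).symm
  rw [h2, Finset.prod_congr rfl fun (w : InfinitePlace K) _ => by
    rw [show ‖algebraMap K w.Completion k‖ = w k from
      norm_coe w ((WithAbs.equiv w.1).symm k)], prod_eq_abs_norm, Rat.cast_abs]

/-- Multiplication on the coordinate space. -/
def mulLin (y : InfiniteAdeleRing K) : CoordSpace K →ₗ[ℝ] CoordSpace K :=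
  Matrix.toEuclideanLin (mulMat y)

theorem coordE_mul (y z : InfiniteAdeleRing K) : coordE K (y * z) = mulLin y (coordE K z) := by
  show WithLp.toLp 2 (coord (y * z)) = WithLp.toLp 2 (mulMat y *ᵥ coord z)
  rw [coord_mul]

theorem det_mulLin (y : InfiniteAdeleRing K) :
    |LinearMap.det (mulLin y)| = ∏ w : InfinitePlace K, ‖y w‖ ^ w.mult := by
  rw [mulLin, Matrix.toEuclideanLin, Matrix.toLpLin_eq_toLin, LinearMap.det_toLin, abs_det_mulMat]

variable (K) in
/-- The matrix of the trace pairing. -/
def pairMat : Matrix (Free.ChooseBasisIndex ℤ (𝓞 K)) (Free.ChooseBasisIndex ℤ (𝓞 K)) ℝ :=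
  (Algebra.traceMatrix ℚ (integralBasis K)).map (algebraMap ℚ ℝ)

/-- The coordinates of the functional `Tr (a ·)` at an infinite adele. -/
def traceVecInf (a : InfiniteAdeleRing K) : CoordSpace K :=
  WithLp.toLp 2 (pairMat K *ᵥ coord a)

theorem traceInf_mul_eq_inner (a y : InfiniteAdeleRing K) :
    traceInf K (a * y) = ⟪coordE K y, traceVecInf a⟫ := by
  conv_lhs => rw [← fromCoord_coord y, ← fromCoord_coord a]
  simp only [fromCoord, Finset.sum_mul, Finset.mul_sum, _root_.map_sum, PiLp.inner_apply]
  refine Finset.sum_congr rfl fun i _ => ?_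
  show _ = inner ℝ (coord y i) ((pairMat K *ᵥ coord a) i)
  rw [RCLike.inner_apply, conj_trivial, Matrix.mulVec, dotProduct, Finset.sum_mul]
  refine Finset.sum_congr rfl fun j _ => ?_
  rw [mul_mul_mul_comm, mul_assoc, traceInf_realScalar_mul, traceInf_realScalar_mul, ← map_mul,
    traceInf_algebraMap, pairMat, Matrix.map_apply, Algebra.traceMatrix_apply,
    Algebra.traceForm_apply, mul_comm (integralBasis K j), eq_ratCast]
  ring

variable (K) in
theorem det_pairMat_ne_zero : (pairMat K).det ≠ 0 := by
  rw [pairMat, show (Algebra.traceMatrix ℚ (integralBasis K)).map (algebraMap ℚ ℝ) =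
    (algebraMap ℚ ℝ).mapMatrix (Algebra.traceMatrix ℚ (integralBasis K)) from rfl, ← RingHom.map_det]
  exact (map_ne_zero _).2 (Algebra.discr_not_zero_of_basis ℚ (integralBasis K))

/-- An invertible matrix as an automorphism of the coordinate space. -/
def matEquiv {M : Matrix (Free.ChooseBasisIndex ℤ (𝓞 K)) (Free.ChooseBasisIndex ℤ (𝓞 K)) ℝ}
    (hM : M.det ≠ 0) : CoordSpace K ≃L[ℝ] CoordSpace K :=
  ((Matrix.toEuclideanLin M).equivOfDetNeZero (by
    rw [Matrix.toEuclideanLin, Matrix.toLpLin_eq_toLin, LinearMap.det_toLin]; exact hM)).toContinuousLinearEquiv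

theorem matEquiv_apply {M : Matrix (Free.ChooseBasisIndex ℤ (𝓞 K)) (Free.ChooseBasisIndex ℤ (𝓞 K)) ℝ}
    (hM : M.det ≠ 0) (v : CoordSpace K) : matEquiv hM v = Matrix.toEuclideanLin M v := rfl

end FA.TateThesis

end
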