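import Fermat.Agent.TateThesis.Linear
import Fermat.Agent.IdeleClass.ClassCompact
import Mathlib.MeasureTheory.Measure.Haar.DistribChar
import Mathlib.MeasureTheory.Measure.Lebesgue.EqHaar

/-!
# The modulus of an idele

Multiplication by an idele scales the Haar measure of the adeles by the absolute value: both are
homomorphisms to the positive reals that agree on the principal ideles and on level zero, which
have finite index together.
-/

set_option autoImplicit false
set_option linter.unusedSectionVars false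
set_option linter.style.haveILetI false

noncomputable section

open NumberField NumberField.InfinitePlace IsDedekindDomain MeasureTheory MeasureTheory.Measure
open Filter Topology Module
open FA.AdeleDual FA.Ideles FA.IdeleClass
open scoped Classical Pointwise NNReal ENNReal

set_option maxHeartbeats 400000

namespace FA.TateThesis

universe u

variable {K : Type u} [Field K] [NumberField K]

local notation "𝐀" => AdeleRing (𝓞 K) K
local notation "𝐊" => algebraMap K (AdeleRing (𝓞 K) K)
local notation "𝐅" => algebraMap K (FiniteAdeleRing (𝓞 K) K)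

attribute [local instance] locallyCompact_adele secondCountable_adele

instance continuousConstSMul_idele : ContinuousConstSMul (Idele K) (AdeleRing (𝓞 K) K) :=
  ⟨fun a => show Continuous fun x : 𝐀 => (a : 𝐀) * x from continuous_const_mul _⟩

variable [MeasurableSpace (AdeleRing (𝓞 K) K)] [BorelSpace (AdeleRing (𝓞 K) K)]

theorem distribHaarChar_unit {a : Idele K}
    (ha : ∀ v, Valued.v ((finComp v a : (v.adicCompletion K)ˣ) : v.adicCompletion K) = 1) :
    (distribHaarChar 𝐀 a : ℝ) = ideleAbs K a := by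
  obtain ⟨μ, hμ, -⟩ := exists_haar_funDom K
  haveI := hμ
  obtain ⟨r, hr⟩ := exists_map_finCoset μ (0 : FiniteAdeleRing (𝓞 K) K) one_ne_zero
  have hcE : Continuous fun x : 𝐀 => coordE K x.1 := continuous_coordE.comp continuous_fst
  set S : Set (CoordSpace K) → Set 𝐀 := fun B =>
    (fun x : 𝐀 => coordE K x.1) ⁻¹' B ∩ finCoset (0 : FiniteAdeleRing (𝓞 K) K) 1 with hS
  have hμS : ∀ B, MeasurableSet B → μ (S B) = r * volume B := fun B hB => by
    have h := congrArg (fun ν : Measure (CoordSpace K) => ν B) hr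
    rw [Measure.map_apply hcE.measurable hB, Measure.restrict_apply (hcE.measurable hB)] at h
    exact h
  have hr0 : r ≠ 0 := fun h0 => by
    have h := hμS Set.univ MeasurableSet.univ
    rw [h0, ENNReal.coe_zero, zero_mul, hS] at h
    simp only [Set.preimage_univ, Set.univ_inter] at h
    refine ((isClopen_finCoset (0 : FiniteAdeleRing (𝓞 K) K) 1).isOpen.measure_pos μ ⟨0, ?_⟩).ne' h
    show 𝐅 ((1 : ℕ) : K)⁻¹ * ((0 : FiniteAdeleRing (𝓞 K) K) - 0) ∈ finInt K
    rw [sub_zero, mul_zero]
    exact zero_mem _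
  have hmem : ∀ x : 𝐀, x ∈ finCoset (0 : FiniteAdeleRing (𝓞 K) K) 1 ↔ ∀ v, Valued.v (x.2 v) ≤ 1 :=
    fun x => by
      show 𝐅 ((1 : ℕ) : K)⁻¹ * (x.2 - 0) ∈ finInt K ↔ _
      rw [Nat.cast_one, inv_one, map_one, one_mul, sub_zero, mem_finInt]
  have hfin : ∀ x : 𝐀, a • x ∈ finCoset (0 : FiniteAdeleRing (𝓞 K) K) 1 ↔
      x ∈ finCoset (0 : FiniteAdeleRing (𝓞 K) K) 1 := fun x => by
    rw [hmem, hmem]
    refine forall_congr' fun v => ?_
    show Valued.v (((finComp v a : (v.adicCompletion K)ˣ) : v.adicCompletion K) * x.2 v) ≤ 1 ↔ _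
    rw [map_mul, ha v, one_mul]
  have himage : ∀ B : Set (CoordSpace K), a • S B = S (mulLin (a : 𝐀).1 '' B) := fun B => by
    ext x
    constructor
    · rintro ⟨y, ⟨hy1, hy2⟩, rfl⟩
      exact ⟨⟨_, hy1, (coordE_mul _ _).symm⟩, (hfin y).2 hy2⟩
    · rintro ⟨⟨b, hb, hbx⟩, hx⟩
      refine ⟨a⁻¹ • x, ⟨?_, (hfin _).1 (by rwa [smul_inv_smul])⟩,
        smul_inv_smul a x⟩
      show coordE K ((↑a⁻¹ : 𝐀).1 * x.1) ∈ B
      have h1 : (↑a⁻¹ : 𝐀).1 * (a : 𝐀).1 = 1 := congrArg Prod.fst a.inv_mul
      have h2 : b = coordE K (fromCoord K (WithLp.ofLp b)) := by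
        ext i; rw [coordE_apply, coord_fromCoord]
      rwa [show (x : 𝐀).1 = (a : 𝐀).1 * fromCoord K (WithLp.ofLp b) from by
        rw [← fromCoord_coord ((a : 𝐀).1 * fromCoord K (WithLp.ofLp b)), ← fromCoord_coord x.1]
        congr 1
        change coord x.1 = coord _
        have h3 : mulLin (a : 𝐀).1 (coordE K (fromCoord K (WithLp.ofLp b))) = coordE K x.1 := by
          rw [← h2]; exact hbx
        rw [← coordE_mul] at h3
        exact (congrArg WithLp.ofLp h3).symm, ← mul_assoc, h1, one_mul, ← h2]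
  have hB := isCompact_closedBall (0 : CoordSpace K) 1
  have hvol0 : volume (Metric.closedBall (0 : CoordSpace K) 1) ≠ 0 :=
    (Metric.measure_closedBall_pos volume 0 one_pos).ne'
  have h1 : μ (a • S (Metric.closedBall 0 1)) =
      (Real.toNNReal |LinearMap.det (mulLin (a : 𝐀).1)| : ℝ≥0) * μ (S (Metric.closedBall 0 1)) := by
    rw [himage, hμS _ (hB.image (mulLin (a : 𝐀).1).continuous_of_finiteDimensional).measurableSet,
      hμS _ hB.measurableSet, addHaar_image_linearMap, ← mul_assoc, ← mul_assoc, mul_comm (r : ℝ≥0∞)]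
    rfl
  have h2 := distribHaarChar_eq_of_measure_smul_eq_mul (A := 𝐀) (μ := μ)
    (by rw [hμS _ hB.measurableSet]; exact mul_ne_zero (ENNReal.coe_ne_zero.2 hr0) hvol0)
    (by rw [hμS _ hB.measurableSet]; exact ENNReal.mul_ne_top ENNReal.coe_ne_top hB.measure_ne_top)
    h1
  rw [h2, Real.coe_toNNReal _ (abs_nonneg _), det_mulLin, ideleAbs_of_units ha]
  rfl

theorem distribHaarChar_principal (k : Kˣ) : distribHaarChar 𝐀 (principal k : Idele K) = 1 := by
  obtain ⟨μ, hμ, hμ1⟩ := exists_haar_funDom K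
  haveI := hμ
  refine distribHaarChar_eq_of_measure_smul_eq_mul (A := 𝐀) (μ := μ) (s := funDom K)
    (by rw [hμ1]; exact one_ne_zero) (by rw [hμ1]; exact ENNReal.one_ne_top) ?_
  rw [ENNReal.coe_one, one_mul]
  refine ((isAddFundamentalDomain_funDom μ).measure_eq ?_).symm
  have hk : ∀ (c : Kˣ) (g : principalAdeles K), 𝐊 (c : K) * (g : 𝐀) ∈ principalAdeles K := fun c g => by
    obtain ⟨d, hd⟩ := mem_principalAdeles.1 g.2
    exact mem_principalAdeles.2 ⟨c * d, by rw [map_mul, hd]⟩
  let e : principalAdeles K ≃ principalAdeles K :=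
    { toFun := fun g => ⟨_, hk k⁻¹ g⟩
      invFun := fun g => ⟨_, hk k g⟩
      left_inv := fun g => Subtype.ext (by
        show 𝐊 (k : K) * (𝐊 ((k⁻¹ : Kˣ) : K) * (g : 𝐀)) = g
        rw [← mul_assoc, ← map_mul, ← Units.val_mul, mul_inv_cancel, Units.val_one, map_one, one_mul])
      right_inv := fun g => Subtype.ext (by
        show 𝐊 ((k⁻¹ : Kˣ) : K) * (𝐊 (k : K) * (g : 𝐀)) = g
        rw [← mul_assoc, ← map_mul, ← Units.val_mul, inv_mul_cancel, Units.val_one, map_one, one_mul]) }
  refine IsAddFundamentalDomain.mk' ((measurableSet_funDom K).const_smul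
    (principal k : Idele K)).nullMeasurableSet fun x => ?_
  refine (e.existsUnique_congr fun {g} => ?_).2
    (existsUnique_mem_funDom (((principal k : Idele K)⁻¹) • x))
  rw [Set.mem_smul_set_iff_inv_smul_mem]
  show (↑(principal k : Idele K)⁻¹ : 𝐀) * ((g : 𝐀) + x) ∈ funDom K ↔
    (e g : 𝐀) + (↑(principal k : Idele K)⁻¹ : 𝐀) * x ∈ funDom K
  rw [mul_add, show (principal k : Idele K)⁻¹ = principal k⁻¹ from (map_inv _ _).symm]
  rfl

/-- **The modulus is the absolute value.** -/
theorem distribHaarChar_eq_ideleAbs (x : Idele K) :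
    (distribHaarChar 𝐀 x : ℝ) = ideleAbs K x := by
  let H : Subgroup (Idele K) :=
    { carrier := {x | (distribHaarChar 𝐀 x : ℝ) = ideleAbs K x}
      one_mem' := by simp
      mul_mem' := fun {a b} ha hb => by
        show ((distribHaarChar 𝐀 (a * b) : ℝ≥0) : ℝ) = _
        rw [map_mul, map_mul, NNReal.coe_mul, ha, hb]
      inv_mem' := fun {a} ha => by
        show ((distribHaarChar 𝐀 a⁻¹ : ℝ≥0) : ℝ) = ideleAbs K a⁻¹
        refine mul_left_cancel₀ (ideleAbs_pos a).ne' ?_
        conv_lhs => rw [← ha, ← NNReal.coe_mul, ← map_mul, mul_inv_cancel, map_one, NNReal.coe_one]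
        rw [← map_mul, mul_inv_cancel, map_one] }
  set N := (principal (K := K)).range ⊔ levelSub (K := K) (∅ : Set (HeightOneSpectrum (𝓞 K))) 0
  have hle : N ≤ H := sup_le (fun _ ⟨k, hk⟩ => hk ▸ (by
    show ((distribHaarChar 𝐀 (principal k : Idele K) : ℝ≥0) : ℝ) = _
    rw [distribHaarChar_principal, ideleAbs_principal, NNReal.coe_one]))
    fun y hy => distribHaarChar_unit fun v => hy.1 v (Set.notMem_empty v)
  haveI := finite_quotient_levelSub_zero (K := K)
  have h := hle (Subgroup.pow_index_mem N x)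
  have h' : (distribHaarChar 𝐀 x : ℝ) ^ N.index = ideleAbs K x ^ N.index := by
    rw [← map_pow, ← NNReal.coe_pow, ← map_pow]; exact h
  exact (pow_left_inj₀ NNReal.zero_le_coe (ideleAbs_pos x).le
    (index_ne_zero_of_isOpen (Subgroup.isOpen_mono le_sup_right isOpen_levelSub_zero) le_sup_left)).1 h'

/-- **Multiplication by an idele scales the Haar measure by the absolute value.** -/
theorem measure_smul_idele (μ : Measure 𝐀) [IsAddHaarMeasure μ] (a : Idele K) (s : Set 𝐀) :
    μ (a • s) = ENNReal.ofReal (ideleAbs K a) * μ s := by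
  rw [← distribHaarChar_mul μ a s, ← distribHaarChar_eq_ideleAbs, ENNReal.ofReal_coe_nnreal]

/-- **The change of variable.** -/
theorem integral_comp_mul {E : Type*} [NormedAddCommGroup E] [NormedSpace ℝ E] (μ : Measure 𝐀)
    [IsAddHaarMeasure μ] (a : Idele K) (f : 𝐀 → E) :
    ∫ x, f ((a : 𝐀) * x) ∂μ = (ideleAbs K a)⁻¹ • ∫ x, f x ∂μ := by
  set e : 𝐀 ≃ᵐ 𝐀 := (Homeomorph.smul a).toMeasurableEquiv
  have hmap : Measure.map e μ = ENNReal.ofReal (ideleAbs K a)⁻¹ • μ := by
    refine Measure.ext fun s hs => ?_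
    rw [MeasurableEquiv.map_apply, Measure.smul_apply, smul_eq_mul,
      show e ⁻¹' s = a⁻¹ • s from Set.preimage_smul a s, measure_smul_idele]
    congr 2
    exact eq_inv_of_mul_eq_one_left (by rw [← map_mul, inv_mul_cancel, map_one])
  show ∫ x, f (e x) ∂μ = _
  rw [← integral_map_equiv, hmap, integral_smul_measure,
    ENNReal.toReal_ofReal (inv_nonneg.2 (ideleAbs_pos a).le)]

end FA.TateThesis

end
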