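import Fermat.Agent.TateThesis.Fourier

/-!
# The Riemann-Roch theorem of Tate

Poisson summation for a function composed with an idele.
-/

set_option autoImplicit false
set_option linter.unusedSectionVars false
set_option linter.style.haveILetI false

noncomputable section

open NumberField IsDedekindDomain MeasureTheory MeasureTheory.Measure
open Filter Topology Module
open FA.AdeleDual FA.Ideles FA.IdeleClass
open scoped Classical SchwartzMap

set_option maxHeartbeats 400000

namespace FA.TateThesis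

universe u

variable {K : Type u} [Field K] [NumberField K]

local notation "𝐀" => AdeleRing (𝓞 K) K
local notation "𝐊" => algebraMap K (AdeleRing (𝓞 K) K)

variable (K) in
/-- **The Schwartz-Bruhat space is spanned by the products.** -/
theorem schwartzBruhat_eq_span : schwartzBruhat K =
    Submodule.span ℂ {f | ∃ (h : 𝓢(mixedEmbedding.mixedSpace K, ℂ))
      (φ : FiniteAdeleRing (𝓞 K) K → ℂ), IsLocallyConstant φ ∧ HasCompactSupport φ ∧
        f = fun x : 𝐀 => h (InfiniteAdeleRing.ringEquiv_mixedSpace K x.1) * φ x.2} := by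
  refine le_antisymm (Submodule.span_le.2 ?_) (Submodule.span_le.2 ?_)
  · rintro _ ⟨g, c, m, hm, rfl⟩
    set U : Set (FiniteAdeleRing (𝓞 K) K) := {b | b - c ∈ natMulInt K m}
    have hU : IsClopen U := by
      have hc : Continuous fun b : FiniteAdeleRing (𝓞 K) K =>
          algebraMap K (FiniteAdeleRing (𝓞 K) K) (m : K)⁻¹ * (b - c) :=
        continuous_const.mul (continuous_id.sub continuous_const)
      exact IsClopen.preimage ⟨(finInt K).isClosed_of_isOpen (isOpen_finInt K), isOpen_finInt K⟩ hc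
    refine Submodule.subset_span ⟨SchwartzMap.compCLMOfContinuousLinearEquiv ℂ mixedCoord.symm g,
      U.indicator fun _ => (1 : ℂ), (LocallyConstant.charFn ℂ hU).isLocallyConstant, ?_,
      funext fun x => ?_⟩
    · refine HasCompactSupport.intro ((isCompact_finInt K).image
        (f := fun u => c + algebraMap K (FiniteAdeleRing (𝓞 K) K) (m : K) * u)
        (continuous_const.add (continuous_const.mul continuous_id)))
        fun b hb => Set.indicator_of_notMem (s := U) (fun hbU => hb
          ⟨algebraMap K (FiniteAdeleRing (𝓞 K) K) (m : K)⁻¹ * (b - c), hbU, ?_⟩) _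
      show c + algebraMap K (FiniteAdeleRing (𝓞 K) K) (m : K) * _ = b
      rw [← mul_assoc, ← map_mul, mul_inv_cancel₀ (Nat.cast_ne_zero.2 hm), map_one, one_mul,
        add_sub_cancel]
    · rw [SchwartzMap.compCLMOfContinuousLinearEquiv_apply, Function.comp_apply, ← mixedCoord_coordE,
        ContinuousLinearEquiv.symm_apply_apply, pureSB]
      by_cases hx : x.2 ∈ U
      · rw [Set.indicator_of_mem (show x ∈ finCoset c m from hx), Set.indicator_of_mem hx, mul_one]
      · rw [Set.indicator_of_notMem (show x ∉ finCoset c m from hx), Set.indicator_of_notMem hx,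
          mul_zero]
  · rintro _ ⟨h, φ, hlc, hcs, rfl⟩
    exact mem_schwartzBruhat h hlc hcs

variable [MeasurableSpace (AdeleRing (𝓞 K) K)] [BorelSpace (AdeleRing (𝓞 K) K)]

/-- The transform of a composite with an idele. -/
theorem adeleFourier_comp_mul (μ : Measure 𝐀) [IsAddHaarMeasure μ] (a : Idele K) (f : 𝐀 → ℂ)
    (b : 𝐀) : adeleFourier μ (fun x => f ((a : 𝐀) * x)) b =
      ((ideleAbs K a)⁻¹ : ℝ) * adeleFourier μ f (↑a⁻¹ * b) := by
  unfold adeleFourier
  rw [← Complex.real_smul, ← integral_comp_mul μ a]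
  refine integral_congr_ae (Eventually.of_forall fun x => ?_)
  show _ = f ((a : 𝐀) * x) *
    starRingEnd ℂ ((stdChar K (↑a⁻¹ * b * ((a : 𝐀) * x)) : Circle) : ℂ)
  rw [show (↑a⁻¹ : 𝐀) * b * ((a : 𝐀) * x) = b * x by
    rw [mul_mul_mul_comm, Units.inv_mul, one_mul]]

theorem summable_norm_translate {μ : Measure 𝐀} [IsAddHaarMeasure μ] (hμ : μ (funDom K) = 1)
    {f : 𝐀 → ℂ} (hf : f ∈ schwartzBruhat K) : Summable fun k : K => ‖f (𝐊 k)‖ := by
  obtain ⟨-, hn, -⟩ := schwartzBruhat_props (μ := μ) hμ hf
  obtain ⟨u, hu, hub⟩ := hn {0} isCompact_singleton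
  refine hu.of_nonneg_of_le (fun k => norm_nonneg _) fun k => ?_
  have h := hub 0 (Set.mem_singleton 0) k
  rwa [zero_add] at h

/-- **The Riemann-Roch theorem.** -/
theorem riemannRoch {μ : Measure 𝐀} [IsAddHaarMeasure μ] (hμ : μ (funDom K) = 1) {f : 𝐀 → ℂ}
    (hf : f ∈ schwartzBruhat K) (a : Idele K) :
    ∑' k : K, f ((a : 𝐀) * 𝐊 k) =
      ((ideleAbs K a)⁻¹ : ℝ) * ∑' k : K, adeleFourier μ f (↑a⁻¹ * 𝐊 k) := by
  obtain ⟨hc, hn, hs⟩ := schwartzBruhat_props (μ := μ) hμ (comp_mul_mem a hf)
  have h := poisson hμ hc hn hs 0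
  simp only [zero_add, mul_zero, AddChar.map_zero_eq_one, Circle.coe_one, mul_one,
    adeleFourier_comp_mul, tsum_mul_left] at h
  exact h

end FA.TateThesis

end
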